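import Fermat.Agent.FFBasic.Degree
import Mathlib.RingTheory.DedekindDomain.AdicValuation
import Mathlib.RingTheory.Ideal.GoingUp
import Mathlib.RingTheory.Adjoin.FG
import Mathlib.LinearAlgebra.FreeModule.PID

/-!
# The affine ring of a function field with respect to a nonconstant function

`affineRing x` consists of the functions regular wherever `x` is; it is the integral closure of
`K[x]`. No separability is needed.
-/

set_option autoImplicit false

noncomputable section

open AlgebraicCurve IntermediateField Polynomial IsDedekindDomain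

namespace FLTAgent.FFBasic

variable {K F : Type*} [Field K] [Field F] [Algebra K F]

/-- Functions regular at every place at which `x` is regular. -/
def affineRing (K : Type*) {F : Type*} [Field K] [Field F] [Algebra K F] (x : F) :
    Subalgebra K F where
  carrier := {f | ∀ v : Place K F, 0 ≤ v.ord x → f ∈ v.toValuationSubring}
  mul_mem' hf hg v hv := mul_mem (hf v hv) (hg v hv)
  add_mem' hf hg v hv := add_mem (hf v hv) (hg v hv)
  algebraMap_mem' a v _ := v.algebraMap_mem' a

theorem mem_affineRing {x f : F} :
    f ∈ affineRing K x ↔ ∀ v : Place K F, 0 ≤ v.ord x → f ∈ v.toValuationSubring :=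
  Iff.rfl

theorem isIntegral_adjoin_mem_valuationSubring (A : ValuationSubring F)
    (hK : ∀ a : K, algebraMap K F a ∈ A) {x f : F} (hx : x ∈ A)
    (hf : IsIntegral (Algebra.adjoin K ({x} : Set F)) f) : f ∈ A := by
  have hle : ∀ a ∈ Algebra.adjoin K ({x} : Set F), a ∈ A := by
    intro a ha
    obtain ⟨p, rfl⟩ := Algebra.adjoin_singleton_eq_range_aeval K x ▸ ha
    exact aeval_mem hK hx p
  let g : Algebra.adjoin K ({x} : Set F) →+* A :=
    (Algebra.adjoin K ({x} : Set F)).val.toRingHom.codRestrict A.toSubring fun a => hle a a.2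
  have : IsIntegral A f := by
    obtain ⟨p, hp, hpf⟩ := hf
    refine ⟨p.map g, hp.map g, ?_⟩
    rw [Polynomial.eval₂_map]
    exact hpf
  obtain ⟨y, rfl⟩ := IsIntegrallyClosed.isIntegral_iff.mp this
  exact y.2

theorem aeval_mem_adjoin_simple (x : F) (p : K[X]) : aeval x p ∈ K⟮x⟯ :=
  (mem_adjoin_simple_iff K _).mpr ⟨p, 1, by simp⟩

variable [IsFunctionField K F]

/-- The affine ring is the integral closure of `K[x]`. -/
theorem mem_affineRing_iff_isIntegral {x f : F} :
    f ∈ affineRing K x ↔ IsIntegral (Algebra.adjoin K ({x} : Set F)) f := by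
  refine ⟨fun hf => ?_, fun hf v hv =>
    isIntegral_adjoin_mem_valuationSubring _ v.algebraMap_mem' (mem_of_ord_nonneg v hv) hf⟩
  set A := Algebra.adjoin K ({x} : Set F)
  by_contra hni
  have hni' : f ∉ (integralClosure A F).toSubring := hni
  have : IsIntegrallyClosedIn (integralClosure A F).toSubring F :=
    inferInstanceAs (IsIntegrallyClosedIn (integralClosure A F) F)
  obtain ⟨V, hV, hfV⟩ := Subring.exists_le_valuationSubring_of_isIntegrallyClosedIn hni'
  have hK : ∀ a : K, algebraMap K F a ∈ V := fun a => hV <| by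
    show algebraMap K F a ∈ integralClosure A F
    exact (integralClosure A F).algebraMap_mem (algebraMap K A a)
  have hxV : x ∈ V := hV <| by
    show x ∈ integralClosure A F
    exact (integralClosure A F).algebraMap_mem
      ⟨x, Algebra.subset_adjoin (Set.mem_singleton x)⟩
  let v := placeOfValuationSubring V hK (fun h => hfV (h ▸ ValuationSubring.mem_top f))
  exact hfV (hf v (ord_nonneg_of_mem v hxV))

theorem exists_nsmul_poles_mem {x f : F} (hf : f ∈ affineRing K x) :
    ∃ k : ℕ, f ∈ riemannRochSpace (k • divPos (-divFun (K := K) x)) := by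
  classical
  set B := divPos (-divFun (K := K) x) with hB
  refine ⟨∑ v ∈ (finite_setOf_ord_ne_zero (K := K) f).toFinset, (v.ord f).natAbs,
    mem_riemannRochSpace_filt.mpr fun v => mem_filt_of_le ?_⟩
  rw [Finsupp.smul_apply, nsmul_eq_mul]
  by_cases hfv : 0 ≤ v.ord f
  · have h1 := mul_nonneg (Int.natCast_nonneg
      (∑ v ∈ (finite_setOf_ord_ne_zero (K := K) f).toFinset, (v.ord f).natAbs))
      (divPos_nonneg (-divFun (K := K) x) v)
    push_cast at h1 ⊢
    simp only [hB] at h1 ⊢
    omega
  · have hxv : v.ord x < 0 := by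
      by_contra h
      exact hfv (ord_nonneg_of_mem v (hf v (not_lt.mp h)))
    have hBv : 1 ≤ B v := by simp [hB]; omega
    have h1 := Finset.single_le_sum (f := fun v : Place K F => (v.ord f).natAbs)
      (fun _ _ => Nat.zero_le _)
      (show v ∈ (finite_setOf_ord_ne_zero (K := K) f).toFinset by simp; omega)
    have h2 := mul_le_mul_of_nonneg_left hBv (Int.natCast_nonneg
      (∑ v ∈ (finite_setOf_ord_ne_zero (K := K) f).toFinset, (v.ord f).natAbs))
    omega

end FLTAgent.FFBasic
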