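import Fermat.Agent.FFBasic.Degree
import Mathlib.FieldTheory.SeparablyGenerated
import Mathlib.RingTheory.Etale.Kaehler
import Mathlib.RingTheory.Etale.Field
import Mathlib.RingTheory.Kaehler.Polynomial
import Mathlib.RingTheory.AlgebraicIndependent.Adjoin
import Mathlib.FieldTheory.Perfect

/-!
# Function fields over perfect fields are curves, and conversely

Over a perfect field a function field in one variable satisfies `IsCurveOver`, the differentials
being free of rank one on a separating element; a finitely generated curve is a function field
(`isFunctionField_of_isCurveOver`).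
-/

set_option autoImplicit false

noncomputable section

open AlgebraicCurve IntermediateField TensorProduct

namespace FLTAgent.FFBasic

variable {K F : Type*} [Field K] [Field F] [Algebra K F]

/-- The module of differentials of a separably generated extension is free on the differentials
of a separating transcendence basis. -/
theorem kaehler_free_finrank_of_separating {ι : Type*} [Fintype ι] {x : ι → F}
    (hx : IsTranscendenceBasis K x)
    [hsep : Algebra.IsSeparable (IntermediateField.adjoin K (Set.range x)) F] :
    Module.Free F Ω[F⁄K] ∧ Module.finrank F Ω[F⁄K] = Fintype.card ι := by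
  let A := MvPolynomial ι K
  let L := FractionRing A
  let e : L ≃ₐ[K] IntermediateField.adjoin K (Set.range x) := hx.1.aevalEquivField
  let : Algebra A F := (MvPolynomial.aeval x).toRingHom.toAlgebra
  let : Algebra L F :=
    ((IntermediateField.adjoin K (Set.range x)).val.comp e.toAlgHom).toRingHom.toAlgebra
  have : IsScalarTower K A F :=
    IsScalarTower.of_algebraMap_eq fun r => ((MvPolynomial.aeval x).commutes r).symm
  have : IsScalarTower A L F := by
    refine IsScalarTower.of_algebraMap_eq' (MvPolynomial.ringHom_ext (fun r => ?_) (fun i => ?_))
    · show MvPolynomial.aeval x (MvPolynomial.C r) =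
        ((e (algebraMap A L (MvPolynomial.C r))) : F)
      rw [MvPolynomial.aeval_C, ← MvPolynomial.algebraMap_eq,
        ← IsScalarTower.algebraMap_apply K A L, e.commutes]
      rfl
    · show MvPolynomial.aeval x (MvPolynomial.X i) =
        ((e (algebraMap A L (MvPolynomial.X i))) : F)
      exact (hx.1.aevalEquivField_algebraMap_apply_coe (MvPolynomial.X i)).symm
  have : Algebra.IsSeparable L F :=
    Algebra.IsSeparable.of_equiv_equiv e.symm.toRingEquiv (RingEquiv.refl F)
      (RingHom.ext fun a => by
        show ((e (e.symm a)) : F) = a
        rw [e.apply_symm_apply])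
  have : Algebra.FormallyEtale A L :=
    Algebra.FormallyEtale.of_isLocalization (nonZeroDivisors A)
  have : Algebra.FormallyEtale L F := Algebra.FormallyEtale.of_isSeparable L F
  have : Algebra.FormallyEtale A F := Algebra.FormallyEtale.comp A L F
  let b := ((KaehlerDifferential.mvPolynomialBasis K ι).baseChange F).map
    (KaehlerDifferential.tensorKaehlerEquivOfFormallyEtale K A F)
  exact ⟨Module.Free.of_basis b, Module.finrank_eq_card_basis b⟩

theorem trdeg_eq_one [IsFunctionField K F] : Algebra.trdeg K F = 1 := by
  refine le_antisymm (IsFunctionField.trdeg_le_one K F) ?_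
  obtain ⟨x, hx, -⟩ := IsFunctionField.exists_transcendental (K := K) (F := F)
  have hind : AlgebraicIndependent K (fun _ : PUnit.{1} => x) :=
    algebraicIndependent_unique_type_iff.mpr hx
  simpa using hind.lift_cardinalMk_le_trdeg

theorem exists_separating [PerfectField K] [IsFunctionField K F] :
    ∃ x : F, Transcendental K x ∧ Algebra.IsSeparable K⟮x⟯ F := by
  have := IsFunctionField.essFiniteType K F
  obtain ⟨s, hs, hsep⟩ := exists_isTranscendenceBasis_and_isSeparable_of_perfectField K F
  have hc := hs.cardinalMk_eq_trdeg
  rw [trdeg_eq_one, Cardinal.mk_coe_finset, Nat.cast_eq_one, Finset.card_eq_one] at hc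
  obtain ⟨x, rfl⟩ := hc
  refine ⟨x, hs.1.transcendental ⟨x, Finset.mem_singleton_self x⟩, ?_⟩
  rwa [Finset.coe_singleton] at hsep

/-- Function fields over perfect fields are curves. -/
instance isCurveOver_of_isFunctionField [PerfectField K] [IsFunctionField K F] :
    IsCurveOver K F where
  finiteResidue v := place_finite_residueField v
  kaehler_free_rank_one := by
    obtain ⟨x, hx, hsep⟩ := exists_separating (K := K) (F := F)
    have hind : AlgebraicIndependent K (fun _ : PUnit.{1} => x) :=
      algebraicIndependent_unique_type_iff.mpr hx
    have hb := hind.isTranscendenceBasis_of_lift_trdeg_le_of_finite (by simp [trdeg_eq_one])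
    have : Algebra.IsSeparable
        (IntermediateField.adjoin K (Set.range fun _ : PUnit.{1} => x)) F := by
      rw [Set.range_const]; exact hsep
    simpa using kaehler_free_finrank_of_separating hb

/-- Conversely, a finitely generated curve over a perfect field is a function field. -/
theorem isFunctionField_of_isCurveOver [PerfectField K] [Algebra.EssFiniteType K F]
    [IsCurveOver K F] : IsFunctionField K F := by
  obtain ⟨s, hs, hsep⟩ := exists_isTranscendenceBasis_and_isSeparable_of_perfectField K F
  have : Algebra.IsSeparable (IntermediateField.adjoin K (Set.range ((↑) : s → F))) F := by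
    rwa [show Set.range ((↑) : s → F) = (s : Set F) from Subtype.range_coe]
  have h1 := (kaehler_free_finrank_of_separating hs).2
  rw [IsCurveOver.finrank_kaehler, Fintype.card_coe] at h1
  refine IsFunctionField.of_trdeg_eq_one ?_
  rw [← hs.cardinalMk_eq_trdeg, Cardinal.mk_coe_finset, ← h1, Nat.cast_one]

end FLTAgent.FFBasic
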