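import Fermat.Agent.FFBasic.Degree
import Fermat.Prelude.Def_AlgebraicCurve_Correspondence
import Mathlib.RingTheory.Norm.Basic
import Mathlib.LinearAlgebra.Matrix.Determinant.Basic

/-!
# The fundamental identity and the norm formula

For an extension of function fields `F' / F` (arbitrary constant field, no separability):
`Σ_{w | v} e_w f_w = [F' : F]`, `pushforward (div f) = div (N f)`.
-/

set_option autoImplicit false

noncomputable section

open AlgebraicCurve IntermediateField

namespace FLTAgent.FFBasic

variable {K F F' : Type*} [Field K] [Field F] [Field F'] [Algebra K F] [Algebra K F']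
  [Algebra F F'] [IsScalarTower K F F']

section Restrict

variable [Algebra.IsIntegral F F']

theorem algebraMap_mem_filt (w : Place K F') {f : F} {n : ℤ} (hf : f ∈ filt (w.restrict F) n) :
    algebraMap F F' f ∈ filt w (w.ramificationIndex F * n) := by
  rcases mem_filt.mp hf with rfl | h
  · simp
  · refine mem_filt_of_le ?_
    rw [w.ord_restrict f]
    exact mul_le_mul_of_nonneg_left h (Int.natCast_nonneg _)

theorem algebraMap_mem_valuationSubring (w : Place K F') {f : F}
    (hf : f ∈ (w.restrict F).toValuationSubring) : algebraMap F F' f ∈ w.toValuationSubring :=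
  w.mem_restrict_iff.mp hf

variable [IsFunctionField K F']

instance finite_residueField_over_restrict (w : Place K F') :
    Module.Finite (w.restrict F).ResidueField w.ResidueField :=
  Module.Finite.of_restrictScalars_finite K _ _

variable (F) in
/-- Index type of an integral basis adapted to the fibre over `v`. -/
abbrev FiberIdx (F' : Type*) [Field F'] [Algebra K F'] [Algebra F F'] [IsScalarTower K F F']
    [Algebra.IsIntegral F F'] [HasPrincipalDivisors K F'] (v : Place K F) : Type _ :=
  AdaptedIdx (S := v.fiber F') (fun w => w.1.ramificationIndex F)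
    (fun w => Fin (w.1.inertiaDeg F))

theorem coe_fiber_restrict {v : Place K F} (w : v.fiber F') : w.1.restrict F = v :=
  Place.mem_fiber.mp w.2

theorem algebraMap_mem_of_fiber {v : Place K F} (w : v.fiber F') {f : F}
    (hf : f ∈ v.toValuationSubring) : algebraMap F F' f ∈ w.1.toValuationSubring :=
  algebraMap_mem_valuationSubring w.1 (by rwa [coe_fiber_restrict w])

theorem algebraMap_mem_filt_of_fiber {v : Place K F} (w : v.fiber F') {f : F} {n : ℤ}
    (hf : f ∈ filt v n) : algebraMap F F' f ∈ filt w.1 (w.1.ramificationIndex F * n) :=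
  algebraMap_mem_filt w.1 (by rwa [coe_fiber_restrict w])

/-- An integral family adapted to the fibre over `v`, with the residue data used to build it. -/
structure FiberFamily (v : Place K F) where
  /-- uniformisers -/
  t : v.fiber F' → F'
  /-- lifts of residue bases -/
  s : (w : v.fiber F') → Fin (w.1.inertiaDeg F) → F'
  /-- the family -/
  z : FiberIdx F F' v → F'
  t_ne : ∀ w, t w ≠ 0
  t_ord : ∀ w : v.fiber F', w.1.ord (t w) = 1
  s_mem : ∀ w j, s w j ∈ w.1.toValuationSubring
  adapted : IsAdapted (fun w : v.fiber F' => w.1.ramificationIndex F) t s z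
  indep : ∀ (w : v.fiber F') (c : Fin (w.1.inertiaDeg F) → F),
    (∀ j, c j ∈ v.toValuationSubring) →
      ∑ j, algebraMap F F' (c j) * s w j ∈ filt w.1 1 → ∀ j, c j ∈ filt v 1

theorem exists_fiberFamily (v : Place K F) : Nonempty (FiberFamily (F' := F') v) := by
  classical
  choose t ht0 ht using fun w : v.fiber F' => exists_ord_eq w.1 1
  choose s hs hsb using fun (w : v.fiber F') (j : Fin (w.1.inertiaDeg F)) =>
    res_surjective w.1 (Module.finBasis (w.1.restrict F).ResidueField w.1.ResidueField j)
  obtain ⟨z, hz⟩ := exists_isAdapted (fun w : v.fiber F' => w.1.ramificationIndex F) t s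
  refine ⟨⟨t, s, z, ht0, ht, hs, hz, ?_⟩⟩
  intro w c hc hsum j
  have hc' : ∀ j, c j ∈ (w.1.restrict F).toValuationSubring := fun j => by
    rw [coe_fiber_restrict w]; exact hc j
  have hmem : ∀ j, algebraMap F F' (c j) * s w j ∈ w.1.toValuationSubring := fun j =>
    mul_mem (algebraMap_mem_valuationSubring w.1 (hc' j)) (hs w j)
  rw [← res_eq_zero_iff _ (sum_mem fun j _ => hmem j), res_sum _ _ _ fun j _ => hmem j] at hsum
  have hres : ∀ j, res w.1 (algebraMap F F' (c j)) =
      w.1.restrictResidueMap F (res (w.1.restrict F) (c j)) := fun j => by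
    rw [res_of_mem _ (hc' j), Place.restrictResidueMap_residue,
      res_of_mem _ (algebraMap_mem_valuationSubring w.1 (hc' j))]
    rfl
  have hsum' : ∑ j, res (w.1.restrict F) (c j) •
      Module.finBasis (w.1.restrict F).ResidueField w.1.ResidueField j = 0 := by
    rw [← hsum]
    refine Finset.sum_congr rfl fun j _ => ?_
    rw [res_mul _ (algebraMap_mem_valuationSubring w.1 (hc' j)) (hs w j), hres j, hsb w j]
    rfl
  have := Fintype.linearIndependent_iff.mp (Module.finBasis _ _).linearIndependent _ hsum' j
  rw [res_eq_zero_iff _ (hc' j), coe_fiber_restrict w] at this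
  exact this

variable {v : Place K F}

theorem FiberFamily.mem (B : FiberFamily (F' := F') v) (w : v.fiber F') (l : FiberIdx F F' v) :
    B.z l ∈ w.1.toValuationSubring :=
  B.adapted.mem B.t_ord B.s_mem w l

theorem FiberFamily.coeff_mem_filt_one (B : FiberFamily (F' := F') v) (c : FiberIdx F F' v → F)
    (hc : ∀ l, c l ∈ v.toValuationSubring)
    (hsum : ∀ w : v.fiber F',
      ∑ l, algebraMap F F' (c l) * B.z l ∈ filt w.1 (w.1.ramificationIndex F : ℤ)) :
    ∀ l, c l ∈ filt v 1 := by
  let φ : v.toValuationSubring →+* F' :=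
    (algebraMap F F').comp v.toValuationSubring.subtype
  have key := B.adapted.coeff_mem (R := v.toValuationSubring) φ
    (IsLocalRing.maximalIdeal v.toValuationSubring) B.t_ne B.t_ord B.s_mem
    (fun w r => algebraMap_mem_of_fiber w r.2) (fun w r hr => by
      have := algebraMap_mem_filt_of_fiber (F' := F') w ((residue_eq_zero_iff v r).mp
        ((IsLocalRing.residue_eq_zero_iff r).mpr hr))
      simpa [φ] using this)
    (fun w d hd j => by
      rw [← IsLocalRing.residue_eq_zero_iff, residue_eq_zero_iff]
      exact B.indep w (fun j => (d j : F)) (fun j => (d j).2) hd j)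
    (fun l => ⟨c l, hc l⟩) hsum
  intro l
  exact (residue_eq_zero_iff v ⟨c l, hc l⟩).mp ((IsLocalRing.residue_eq_zero_iff _).mpr (key l))

/-- If a combination of the family is integral along the fibre, so are its coefficients. -/
theorem FiberFamily.coeff_mem (B : FiberFamily (F' := F') v) (c : FiberIdx F F' v → F)
    (hsum : ∀ w : v.fiber F', ∑ l, algebraMap F F' (c l) * B.z l ∈ w.1.toValuationSubring) :
    ∀ l, c l ∈ v.toValuationSubring := by
  classical
  by_contra hcon
  push Not at hcon
  obtain ⟨l₁, hl₁⟩ := hcon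
  obtain ⟨l₀, -, hmin⟩ := Finset.exists_min_image Finset.univ (fun l => v.ord (c l))
    ⟨l₁, Finset.mem_univ _⟩
  have hneg : v.ord (c l₀) < 0 := by
    have h1 := hmin l₁ (Finset.mem_univ _)
    have h2 : ¬ 0 ≤ v.ord (c l₁) := fun h => hl₁ (mem_of_ord_nonneg v h)
    omega
  have h0 : c l₀ ≠ 0 := by intro h; simp [h] at hneg
  have hd : ∀ l, (c l₀)⁻¹ * c l ∈ v.toValuationSubring := fun l => by
    rcases eq_or_ne (c l) 0 with hl | hl
    · rw [hl, mul_zero]; exact zero_mem _
    · refine mem_of_ord_nonneg v ?_
      rw [v.ord_mul (inv_ne_zero h0) hl, v.ord_inv]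
      have := hmin l (Finset.mem_univ _)
      omega
  have hmem := B.coeff_mem_filt_one _ hd (fun w => ?_) l₀
  · rw [inv_mul_cancel₀ h0, mem_filt_iff_of_ne one_ne_zero, v.ord_one] at hmem
    omega
  have hinv : algebraMap F F' (c l₀)⁻¹ ∈ filt w.1 (w.1.ramificationIndex F * 1) :=
    algebraMap_mem_filt_of_fiber w (mem_filt_of_le (by rw [v.ord_inv]; omega))
  have := mul_mem_filt hinv (mem_filt_zero.mpr (hsum w))
  rw [Finset.mul_sum] at this
  simpa [map_mul, mul_assoc] using this

theorem FiberFamily.linearIndependent (B : FiberFamily (F' := F') v) :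
    LinearIndependent F B.z := by
  classical
  rw [Fintype.linearIndependent_iff]
  intro g hg l
  by_contra hne
  obtain ⟨t, ht0, ht⟩ := exists_ord_eq v (-(v.ord (g l)) - 1)
  have h := B.coeff_mem (fun m => t * g m) (fun w => ?_) l
  · rw [mem_iff_ord_nonneg v (mul_ne_zero ht0 hne), v.ord_mul ht0 hne, ht] at h
    omega
  have : ∑ m, algebraMap F F' (t * g m) * B.z m = 0 := by
    rw [← mul_zero (algebraMap F F' t), ← hg, Finset.mul_sum]
    exact Finset.sum_congr rfl fun m _ => by rw [map_mul, Algebra.smul_def, mul_assoc]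
  rw [this]
  exact zero_mem _

theorem sum_ramificationIndex_mul_inertiaDeg_le [Module.Finite F F'] (v : Place K F) :
    ∑ w ∈ v.fiber F', w.ramificationIndex F * w.inertiaDeg F ≤ Module.finrank F F' := by
  obtain ⟨B⟩ := exists_fiberFamily (F' := F') v
  have h := B.linearIndependent.fintype_card_le_finrank
  simp only [FiberIdx, AdaptedIdx, Fintype.card_sigma, Fintype.card_prod, Fintype.card_fin] at h
  rwa [Finset.sum_coe_sort (v.fiber F') fun w => w.ramificationIndex F * w.inertiaDeg F] at h

end Restrict

section Equality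

variable [IsFunctionField K F] [IsFunctionField K F'] [Algebra.IsIntegral F F']

omit [Algebra.IsIntegral F F'] [IsFunctionField K F] [IsFunctionField K F'] in
theorem finrank_adjoin_algebraMap (x : F) :
    Module.finrank K⟮algebraMap F F' x⟯ F' = Module.finrank K⟮x⟯ F * Module.finrank F F' := by
  set ι : F →ₐ[K] F' := IsScalarTower.toAlgHom K F F' with hι
  set e : K⟮x⟯ ≃ₐ[K] K⟮algebraMap F F' x⟯ :=
    (IntermediateField.equivMap K⟮x⟯ ι).trans
      (IntermediateField.equivOfEq (by rw [adjoin_map, Set.image_singleton]; rfl)) with he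
  rw [Module.finrank_mul_finrank K⟮x⟯ F F']
  exact (Algebra.finrank_eq_of_equiv_equiv e.toRingEquiv (RingEquiv.refl F')
    (RingHom.ext fun a => rfl)).symm

theorem divPos_neg_divFun_algebraMap (x : F) :
    divPos (-divFun (K := K) (algebraMap F F' x)) =
      Divisor.pullback F' (divPos (-divFun (K := K) x)) := by
  ext w
  simp only [divPos_apply, Finsupp.neg_apply, divFun_apply, Divisor.pullback_apply,
    w.ord_restrict x]
  rw [mul_max_of_nonneg _ _ (Int.natCast_nonneg _), mul_neg, mul_zero]

theorem sum_ramificationIndex_mul_inertiaDeg_eq (v : Place K F) :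
    ∑ w ∈ v.fiber F', w.ramificationIndex F * w.inertiaDeg F = Module.finrank F F' := by
  classical
  have := IsFunctionField.finite_of_isFunctionField (K := K) (F := F) (F' := F')
  set n := Module.finrank F F' with hn
  obtain ⟨x, hx0, hx⟩ := exists_ord_eq v (-1)
  have htr : Transcendental K x := transcendental_of_ord_ne_zero v (by omega)
  have htr' : Transcendental K (algebraMap F F' x) := fun h =>
    htr ((isAlgebraic_algHom_iff (IsScalarTower.toAlgHom K F F') (algebraMap F F').injective).mp h)
  set B := divPos (-divFun (K := K) x) with hB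
  have hdeg : Divisor.degree (Divisor.pullback F' B) = (n : ℤ) * Divisor.degree B := by
    rw [hB, ← divPos_neg_divFun_algebraMap, degree_poles htr', degree_poles htr,
      finrank_adjoin_algebraMap]
    push_cast
    ring
  have hT : ∀ u : Place K F, Divisor.degree (Divisor.pullback F' (Finsupp.single u 1)) =
      (u.deg : ℤ) * (∑ w ∈ u.fiber F', w.ramificationIndex F * w.inertiaDeg F : ℕ) := by
    intro u
    rw [Divisor.pullback_single, map_sum, Nat.cast_sum, Finset.mul_sum]
    refine Finset.sum_congr rfl fun w hw => ?_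
    rw [Divisor.degree_single, one_mul, ← w.deg_restrict_mul_inertiaDeg (F := F),
      Place.mem_fiber.mp hw]
    push_cast
    ring
  have hsum : ∑ u ∈ B.support, B u * ((u.deg : ℤ) *
      ((n : ℤ) - (∑ w ∈ u.fiber F', w.ramificationIndex F * w.inertiaDeg F : ℕ))) = 0 := by
    have h1 : Divisor.degree (Divisor.pullback F' B) =
        ∑ u ∈ B.support, B u * Divisor.degree (Divisor.pullback F' (Finsupp.single u 1)) := by
      conv_lhs => rw [← B.sum_single]
      rw [Finsupp.sum, map_sum, map_sum]
      refine Finset.sum_congr rfl fun u _ => ?_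
      rw [show Finsupp.single u (B u) = B u • Finsupp.single u (1 : ℤ) by
        rw [Finsupp.smul_single, smul_eq_mul, mul_one], map_zsmul, map_zsmul, smul_eq_mul]
    rw [h1, degree_eq_sum_support, Finset.mul_sum] at hdeg
    simp only [hT] at hdeg
    rw [← sub_eq_zero, ← Finset.sum_sub_distrib] at hdeg
    rw [← neg_eq_zero, ← Finset.sum_neg_distrib, ← hdeg]
    exact Finset.sum_congr rfl fun u _ => by ring
  have hBv : B v = 1 := by simp [hB, hx]
  have hnn : ∀ u ∈ B.support, 0 ≤ B u * ((u.deg : ℤ) *
      ((n : ℤ) - (∑ w ∈ u.fiber F', w.ramificationIndex F * w.inertiaDeg F : ℕ))) := by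
    intro u _
    refine mul_nonneg (divPos_nonneg _ u) (mul_nonneg (Int.natCast_nonneg _) ?_)
    rw [sub_nonneg]
    exact_mod_cast sum_ramificationIndex_mul_inertiaDeg_le (F' := F') u
  have hv := (Finset.sum_eq_zero_iff_of_nonneg hnn).mp hsum v (by simp [hBv])
  rw [hBv, one_mul, mul_eq_zero, sub_eq_zero] at hv
  have := place_deg_pos v
  omega

instance sumRamificationInertia_of_isFunctionField : SumRamificationInertia K F F' where
  sum_ramificationIndex_mul_inertiaDeg v := by
    exact_mod_cast sum_ramificationIndex_mul_inertiaDeg_eq (F' := F') v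

theorem fiber_nonempty (v : Place K F) : (v.fiber F').Nonempty := by
  have := IsFunctionField.finite_of_isFunctionField (K := K) (F := F) (F' := F')
  rw [Finset.nonempty_iff_ne_empty]
  intro h
  have h1 := sum_ramificationIndex_mul_inertiaDeg_eq (F' := F') v
  rw [h, Finset.sum_empty] at h1
  have h2 : 0 < Module.finrank F F' := Module.finrank_pos
  omega

theorem exists_restrict_eq (v : Place K F) : ∃ w : Place K F', w.restrict F = v :=
  let ⟨w, hw⟩ := fiber_nonempty (F' := F') v
  ⟨w, Place.mem_fiber.mp hw⟩

end Equality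

section Norm

variable [IsFunctionField K F] [IsFunctionField K F'] [Algebra.IsIntegral F F']
  [Module.Finite F F'] {v : Place K F}

/-- The integral basis attached to the fibre over `v`. -/
def FiberFamily.basis (B : FiberFamily (F' := F') v) :
    Module.Basis (FiberIdx F F' v) F F' :=
  Module.Basis.mk B.linearIndependent (by
    refine (B.linearIndependent.span_eq_top_of_card_eq_finrank' ?_).ge
    simp only [FiberIdx, AdaptedIdx, Fintype.card_sigma, Fintype.card_prod, Fintype.card_fin]
    rw [Finset.sum_coe_sort (v.fiber F') fun w => w.ramificationIndex F * w.inertiaDeg F]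
    exact sum_ramificationIndex_mul_inertiaDeg_eq v)

/-- An element is the combination of the fibre basis with its coordinates. -/
theorem FiberFamily.sum_repr (B : FiberFamily (F' := F') v) (f : F') :
    ∑ l, algebraMap F F' (B.basis.repr f l) * B.z l = f := by
  conv_rhs => rw [← B.basis.sum_repr f]
  refine Finset.sum_congr rfl fun l _ => ?_
  rw [Algebra.smul_def, FiberFamily.basis, Module.Basis.mk_apply]

/-- The functions integral along the fibre over `v` have integral coordinates. -/
theorem FiberFamily.repr_mem (B : FiberFamily (F' := F') v) {f : F'}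
    (hf : ∀ w : v.fiber F', f ∈ w.1.toValuationSubring) (l : FiberIdx F F' v) :
    B.basis.repr f l ∈ v.toValuationSubring :=
  B.coeff_mem _ (fun w => (B.sum_repr f).symm ▸ hf w) l

omit [Algebra K F] [Algebra K F'] [IsScalarTower K F F'] [IsFunctionField K F]
  [IsFunctionField K F'] [Algebra.IsIntegral F F'] in
theorem norm_zpow' (x : F') (n : ℤ) : Algebra.norm F (x ^ n) = Algebra.norm F x ^ n := by
  obtain ⟨m, rfl | rfl⟩ := Int.eq_nat_or_neg n
  · rw [zpow_natCast, zpow_natCast, map_pow]
  · rw [zpow_neg, zpow_neg, zpow_natCast, zpow_natCast, Algebra.norm_inv, map_pow]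

theorem det_mem {A : ValuationSubring F} {ι : Type*} [Fintype ι] [DecidableEq ι]
    (M : Matrix ι ι F) (hM : ∀ i j, M i j ∈ A) : M.det ∈ A := by
  rw [Matrix.det_apply]
  refine sum_mem fun σ _ => ?_
  rw [Units.smul_def]
  exact zsmul_mem (prod_mem fun i _ => hM _ _) _

theorem norm_mem_of_forall_mem {f : F'} (hf : ∀ w : v.fiber F', f ∈ w.1.toValuationSubring) :
    Algebra.norm F f ∈ v.toValuationSubring := by
  classical
  obtain ⟨B⟩ := exists_fiberFamily (F' := F') v
  rw [Algebra.norm_eq_matrix_det B.basis]
  refine det_mem _ fun i j => ?_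
  rw [Algebra.leftMulMatrix_eq_repr_mul]
  refine B.repr_mem (fun w => mul_mem (hf w) ?_) i
  rw [FiberFamily.basis, Module.Basis.mk_apply]
  exact B.mem w j

theorem ord_norm_eq_zero {f : F'} (h : ∀ w : v.fiber F', w.1.ord f = 0) :
    v.ord (Algebra.norm F f) = 0 := by
  have h1 := ord_nonneg_of_mem v
    (norm_mem_of_forall_mem (v := v) (f := f) fun w => mem_of_ord_nonneg _ (h w).ge)
  have h2 := ord_nonneg_of_mem v (norm_mem_of_forall_mem (v := v) (f := f⁻¹)
    fun w => mem_of_ord_nonneg _ (by rw [Place.ord_inv, h w, neg_zero]))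
  rw [Algebra.norm_inv, v.ord_inv] at h2
  omega

theorem inertiaDeg_le_ord_norm (w : v.fiber F') {π : F'} (hπ0 : π ≠ 0)
    (hπ : π ∈ filt w.1 1) (hint : ∀ u : v.fiber F', π ∈ u.1.toValuationSubring) :
    (w.1.inertiaDeg F : ℤ) ≤ v.ord (Algebra.norm F π) := by
  classical
  obtain ⟨B⟩ := exists_fiberFamily (F' := F') v
  obtain ⟨t, ht0, ht⟩ := exists_ord_eq v 1
  set M := Algebra.leftMulMatrix B.basis π with hM
  have he : 0 < w.1.ramificationIndex F := w.1.ramificationIndex_pos
  set row : Fin (w.1.inertiaDeg F) → FiberIdx F F' v := fun j => ⟨w, ⟨0, he⟩, j⟩ with hrow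
  have hMmem : ∀ i j, M i j ∈ v.toValuationSubring := fun i j => by
    rw [hM, Algebra.leftMulMatrix_eq_repr_mul]
    refine B.repr_mem (fun u => mul_mem (hint u) ?_) i
    rw [FiberFamily.basis, Module.Basis.mk_apply]
    exact B.mem u j
  -- the rows over `w` of index `0` are divisible by the uniformiser
  have hrowmem : ∀ k j, M (row k) j ∈ filt v 1 := by
    intro k j
    set c := fun l => M l j with hc
    refine B.indep w (fun k => c (row k)) (fun k => hMmem _ _) ?_ k
    have hsum : ∑ l, algebraMap F F' (c l) * B.z l = π * B.z j := by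
      simp only [hc, hM, Algebra.leftMulMatrix_eq_repr_mul, B.sum_repr]
      rw [FiberFamily.basis, Module.Basis.mk_apply]
    have htot : ∑ l, algebraMap F F' (c l) * B.z l ∈ filt w.1 1 := by
      rw [hsum]
      simpa using mul_mem_filt hπ (mem_filt_zero.mpr (B.mem w j))
    have hsplit : ∑ l, algebraMap F F' (c l) * B.z l -
        ∑ k, algebraMap F F' (c (row k)) * B.s w k ∈ filt w.1 1 := by
      have hinj : Function.Injective row := fun a b h => by simpa [hrow] using h
      rw [← Finset.sum_compl_add_sum (Finset.univ.image row), Finset.sum_image hinj.injOn,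
        add_sub_assoc, ← Finset.sum_sub_distrib]
      refine add_mem (sum_mem fun l hl => ?_) (sum_mem fun k _ => ?_)
      · rw [← zero_add (1 : ℤ)]
        refine mul_mem_filt (mem_filt_zero.mpr (algebraMap_mem_of_fiber w (hMmem _ _))) ?_
        obtain ⟨u, i, k⟩ := l
        by_cases hu : w = u
        · subst hu
          have hi : (i : ℕ) ≠ 0 := fun h => by
            simp only [Finset.mem_compl, Finset.mem_image, Finset.mem_univ, true_and] at hl
            exact hl ⟨k, by simp [hrow, Fin.ext_iff, h]⟩
          rw [← sub_add_cancel (B.z _) (B.t w ^ (i : ℕ) * B.s w k)]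
          refine add_mem (filt_antitone _ (show (1 : ℤ) ≤ (w.1.ramificationIndex F : ℤ) by omega)
            (B.adapted ⟨w, i, k⟩).1) ?_
          have := mul_mem_filt (pow_mem_filt (mem_filt_of_le (B.t_ord w).ge) (i : ℕ))
            (mem_filt_zero.mpr (B.s_mem w k))
          exact filt_antitone _ (by omega) this
        · exact filt_antitone _ (show (1 : ℤ) ≤ (w.1.ramificationIndex F : ℤ) by omega)
            ((B.adapted ⟨u, i, k⟩).2 w hu)
      · rw [← mul_sub, ← zero_add (1 : ℤ)]
        refine mul_mem_filt (mem_filt_zero.mpr (algebraMap_mem_of_fiber w (hMmem _ _))) ?_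
        have := filt_antitone _ (show (1 : ℤ) ≤ (w.1.ramificationIndex F : ℤ) by omega)
          (B.adapted (row k)).1
        change B.z (row k) - B.t w ^ (0 : ℕ) * B.s w k ∈ filt w.1 1 at this
        simpa using this
    simpa using sub_mem htot hsplit
  set s := (Finset.univ.image row) with hs
  set d : FiberIdx F F' v → F := fun i => if i ∈ s then t else 1 with hd
  have hdne : ∀ i, d i ≠ 0 := fun i => by simp [hd]; split <;> simp [ht0]
  set M' : Matrix (FiberIdx F F' v) (FiberIdx F F' v) F :=
    Matrix.of fun i j => (d i)⁻¹ * M i j with hM'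
  have hdet : M.det = (∏ i, d i) * M'.det := by
    rw [← Matrix.det_mul_column]
    congr 1
    ext i j
    simp [hM', mul_inv_cancel_left₀ (hdne i)]
  have hM'mem : ∀ i j, M' i j ∈ v.toValuationSubring := fun i j => by
    simp only [hM', Matrix.of_apply, hd]
    split
    · rename_i hi
      obtain ⟨k, -, rfl⟩ := Finset.mem_image.mp hi
      have := mul_mem_filt (mem_filt_of_le (show -1 ≤ v.ord t⁻¹ by rw [v.ord_inv, ht]))
        (hrowmem k j)
      exact mem_filt_zero.mp (by simpa using this)
    · simpa using hMmem i j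
  have hN : Algebra.norm F π = (∏ i, d i) * M'.det := by
    rw [Algebra.norm_eq_matrix_det B.basis, ← hM, hdet]
  have hN0 : Algebra.norm F π ≠ 0 := Algebra.norm_ne_zero_iff.mpr hπ0
  rw [hN] at hN0 ⊢
  rw [v.ord_mul (left_ne_zero_of_mul hN0) (right_ne_zero_of_mul hN0),
    ord_prod v _ _ fun i _ => hdne i]
  have h1 : ∑ i, v.ord (d i) = w.1.inertiaDeg F := by
    simp only [hd, apply_ite v.ord, ht, Place.ord_one]
    rw [Finset.sum_ite_mem, Finset.univ_inter, Finset.sum_const, hs,
      Finset.card_image_of_injective _ fun a b h => by simpa [hrow] using h]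
    simp
  have h2 := ord_nonneg_of_mem v (det_mem M' hM'mem)
  omega

/-- `ord_v (N f) = Σ_{w | v} f_w ord_w f`. -/
theorem ord_norm {f : F'} (hf : f ≠ 0) :
    v.ord (Algebra.norm F f) = ∑ w ∈ v.fiber F', w.ord f * w.inertiaDeg F := by
  classical
  have hex : ∀ w : v.fiber F', ∃ π : F', π ≠ 0 ∧ ∀ u : v.fiber F',
      u.1.ord π = if u = w then 1 else 0 := by
    intro w
    obtain ⟨π, hπ⟩ := exists_ord_eq_forall (v.fiber F') fun u => if u = w.1 then 1 else 0
    refine ⟨π, (hπ w w.2).1, fun u => ?_⟩
    rw [(hπ u u.2).2]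
    by_cases h : u = w <;> simp [h]
  choose π hπ0 hπ using hex
  set a : v.fiber F' → ℤ := fun w => v.ord (Algebra.norm F (π w)) with ha
  have hge : ∀ w, (w.1.inertiaDeg F : ℤ) ≤ a w := fun w =>
    inertiaDeg_le_ord_norm w (hπ0 w) (mem_filt_of_le (by rw [hπ w w, if_pos rfl]))
      fun u => mem_of_ord_nonneg _ (by rw [hπ w u]; split <;> simp)
  have hgen : ∀ g : F', g ≠ 0 →
      v.ord (Algebra.norm F g) = ∑ w : v.fiber F', w.1.ord g * a w := by
    intro g hg
    set p := ∏ w : v.fiber F', π w ^ (w.1.ord g) with hp
    have hp0 : p ≠ 0 := Finset.prod_ne_zero_iff.mpr fun w _ => zpow_ne_zero _ (hπ0 w)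
    have hordp : ∀ u : v.fiber F', u.1.ord p = u.1.ord g := fun u => by
      rw [hp, ord_prod _ _ _ fun w _ => zpow_ne_zero _ (hπ0 w)]
      simp [Place.ord_zpow, hπ]
    have hu0 : g * p⁻¹ ≠ 0 := mul_ne_zero hg (inv_ne_zero hp0)
    have hu : v.ord (Algebra.norm F (g * p⁻¹)) = 0 :=
      ord_norm_eq_zero fun u => by
        rw [Place.ord_mul _ hg (inv_ne_zero hp0), Place.ord_inv, hordp]; ring
    have hgp : g = g * p⁻¹ * p := by rw [inv_mul_cancel_right₀ hp0]
    conv_lhs => rw [hgp]
    rw [map_mul, v.ord_mul (Algebra.norm_ne_zero_iff.mpr hu0) (Algebra.norm_ne_zero_iff.mpr hp0),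
      hu, zero_add, hp, map_prod,
      ord_prod v _ _ fun w _ => Algebra.norm_ne_zero_iff.mpr (zpow_ne_zero _ (hπ0 w))]
    refine Finset.sum_congr rfl fun w _ => ?_
    rw [norm_zpow', v.ord_zpow]
  obtain ⟨t, ht0, ht⟩ := exists_ord_eq v 1
  have htot := hgen (algebraMap F F' t) (by simpa using ht0)
  rw [Algebra.norm_algebraMap, ord_pow, ht, mul_one] at htot
  have hordt : ∀ w : v.fiber F', w.1.ord (algebraMap F F' t) = w.1.ramificationIndex F :=
    fun w => by rw [w.1.ord_restrict, coe_fiber_restrict w, ht, mul_one]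
  simp only [hordt] at htot
  have hsum := sum_ramificationIndex_mul_inertiaDeg_eq (F' := F') v
  rw [← Finset.sum_coe_sort (v.fiber F')] at hsum
  have heq : ∀ w, a w = w.1.inertiaDeg F := by
    have hle : ∀ w ∈ (Finset.univ : Finset (v.fiber F')),
        (w.1.ramificationIndex F : ℤ) * w.1.inertiaDeg F ≤ w.1.ramificationIndex F * a w :=
      fun w _ => mul_le_mul_of_nonneg_left (hge w) (Int.natCast_nonneg _)
    have htot' : ∑ w : v.fiber F', (w.1.ramificationIndex F : ℤ) * w.1.inertiaDeg F
        = ∑ w : v.fiber F', (w.1.ramificationIndex F : ℤ) * a w := by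
      rw [← htot, ← hsum]
      push_cast
      rfl
    intro w
    exact (mul_left_cancel₀ (by exact_mod_cast w.1.ramificationIndex_pos.ne')
      ((Finset.sum_eq_sum_iff_of_le hle).mp htot' w (Finset.mem_univ _))).symm
  rw [hgen f hf, ← Finset.sum_coe_sort (v.fiber F')]
  simp only [heq]

theorem pushforwardNormFormula : Divisor.PushforwardNormFormula K F F' := by
  classical
  intro f hf D hD v
  rw [Divisor.pushforward_apply, ord_norm hf, ← Finset.sum_filter]
  rw [Finset.sum_subset (s₁ := D.support.filter fun w => w.restrict F = v) (s₂ := v.fiber F')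
    (fun w hw => Place.mem_fiber.mpr (Finset.mem_filter.mp hw).2) fun w hw hw' => ?_]
  · exact Finset.sum_congr rfl fun w _ => by rw [hD w]
  · have : D w = 0 := by
      by_contra h
      exact hw' (Finset.mem_filter.mpr ⟨Finsupp.mem_support_iff.mpr h, Place.mem_fiber.mp hw⟩)
    rw [this, zero_mul]

end Norm

section Along

variable {K F F' : Type*} [Field K] [Field F] [Field F'] [Algebra K F] [Algebra K F']
  [IsFunctionField K F] [IsFunctionField K F'] (φ : F →ₐ[K] F')

/-- An embedding of function fields is finite. -/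
theorem finiteAlong : FiniteAlong K φ := by
  let := algebraAlong φ
  have := isScalarTower_along φ
  exact IsFunctionField.finite_of_isFunctionField (K := K)

/-- An embedding of function fields is integral. -/
theorem isIntegral_of_isFunctionField : φ.toRingHom.IsIntegral := by
  let := algebraAlong φ
  have : Module.Finite F F' := finiteAlong φ
  exact (Algebra.IsIntegral.of_finite F F').isIntegral

theorem fundamentalIdentityAlong (hφ : φ.toRingHom.IsIntegral) :
    FundamentalIdentityAlong K φ hφ := by
  let := algebraAlong φ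
  have := isScalarTower_along φ
  have := isIntegral_along φ hφ
  show FundamentalIdentity K F F'
  infer_instance

/-- Pushforward along an embedding of function fields obeys the norm formula. -/
theorem normFormulaAlong (hfin : FiniteAlong K φ) : NormFormulaAlong K φ hfin := by
  let := algebraAlong φ
  have := isScalarTower_along φ
  have : Module.Finite F F' := hfin
  exact pushforwardNormFormula

theorem exists_restrictAlong_eq (hφ : φ.toRingHom.IsIntegral) (v : Place K F) :
    ∃ w : Place K F', w.restrictAlong φ hφ = v := by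
  let := algebraAlong φ
  have := isScalarTower_along φ
  have := isIntegral_along φ hφ
  exact exists_restrict_eq v

end Along

end FLTAgent.FFBasic
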