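import Mathlib.RingTheory.Valuation.ValuationSubring
import Mathlib.FieldTheory.IsAlgClosed.Basic
import Mathlib.RingTheory.Valuation.LocalSubring

/-!
# Residue fields of valuation rings of algebraically closed fields

Such a residue field is algebraically closed.
-/

set_option autoImplicit false

open Polynomial

namespace FLTAgent.FFBasic

/-- The residue field of a valuation ring of an algebraically closed field is
algebraically closed. -/
theorem isAlgClosed_residueField {L : Type*} [Field L] [IsAlgClosed L] (A : ValuationSubring L) :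
    IsAlgClosed (IsLocalRing.ResidueField A) := by
  refine IsAlgClosed.of_exists_root _ fun p hp hirr => ?_
  obtain ⟨q, hq, hdeg, hmon⟩ := lifts_and_degree_eq_and_monic
    (show p ∈ lifts (IsLocalRing.residue A) by
      rw [lifts_iff_coeff_lifts]
      exact fun n => IsLocalRing.residue_surjective _) hp
  have hpdeg : 0 < p.degree := degree_pos_of_irreducible hirr
  obtain ⟨x, hx⟩ := IsAlgClosed.exists_root (q.map A.subtype) (by
    rw [degree_map_eq_of_injective Subtype.val_injective, hdeg]; exact hpdeg.ne')
  have hxA : x ∈ A := by
    have hint : IsIntegral A x := ⟨q, hmon, by rwa [IsRoot, eval_map] at hx⟩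
    obtain ⟨y, hy⟩ := IsIntegrallyClosed.isIntegral_iff.mp hint
    exact hy ▸ y.2
  refine ⟨IsLocalRing.residue A ⟨x, hxA⟩, ?_⟩
  rw [← hq, eval_map, eval₂_at_apply]
  have h0 : q.eval (⟨x, hxA⟩ : A) = 0 := by
    apply Subtype.ext
    have h := eval₂_at_apply A.subtype (p := q) (⟨x, hxA⟩ : A)
    rw [IsRoot, eval_map] at hx
    exact h.symm.trans hx
  rw [h0, map_zero]

end FLTAgent.FFBasic
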