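import Mathlib.FieldTheory.IntermediateField.Adjoin.Defs

/-!
# Generated fields consist of fractions

If the generators are fractions of elements in the image of a ring homomorphism `f`, so is every
element of the field they generate.
-/

set_option autoImplicit false

namespace FLTAgent.FFBasic

variable {A E : Type*} [CommRing A] [Field E] (f : A →+* E)

/-- The field generated by fractions `f a / f b` consists of such fractions. -/
theorem exists_mul_eq_of_mem_closure {s : Set E}
    (h : ∀ x ∈ s, ∃ a b, f b ≠ 0 ∧ x * f b = f a) {z : E} (hz : z ∈ Subfield.closure s) :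
    ∃ a b, f b ≠ 0 ∧ z * f b = f a := by
  induction hz using Subfield.closure_induction with
  | mem x hx => exact h x hx
  | one => exact ⟨1, 1, by simp, one_mul _⟩
  | neg x _ hx =>
    obtain ⟨a, b, hb, e⟩ := hx
    exact ⟨-a, b, hb, by rw [neg_mul, e, map_neg]⟩
  | add x y _ _ hx hy =>
    obtain ⟨a, b, hb, e⟩ := hx
    obtain ⟨a', b', hb', e'⟩ := hy
    refine ⟨a * b' + a' * b, b * b', by rw [map_mul]; exact mul_ne_zero hb hb', ?_⟩
    rw [map_add, map_mul, map_mul, map_mul, ← e, ← e']
    ring
  | inv x _ hx =>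
    obtain ⟨a, b, hb, e⟩ := hx
    rcases eq_or_ne x 0 with rfl | hx0
    · exact ⟨0, 1, by simp, by simp⟩
    refine ⟨b, a, by rw [← e]; exact mul_ne_zero hx0 hb, ?_⟩
    rw [← e, ← mul_assoc, inv_mul_cancel₀ hx0, one_mul]
  | mul x y _ _ hx hy =>
    obtain ⟨a, b, hb, e⟩ := hx
    obtain ⟨a', b', hb', e'⟩ := hy
    refine ⟨a * a', b * b', by rw [map_mul]; exact mul_ne_zero hb hb', ?_⟩
    rw [map_mul, map_mul, ← e, ← e']
    ring

/-- The same over a base field whose elements are fractions. -/
theorem exists_mul_eq_of_mem_adjoin {K : Type*} [Field K] [Algebra K E] {s : Set E}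
    (hK : ∀ c : K, ∃ a b, f b ≠ 0 ∧ algebraMap K E c * f b = f a)
    (h : ∀ x ∈ s, ∃ a b, f b ≠ 0 ∧ x * f b = f a) {z : E}
    (hz : z ∈ IntermediateField.adjoin K s) : ∃ a b, f b ≠ 0 ∧ z * f b = f a := by
  rw [← IntermediateField.mem_toSubfield, IntermediateField.adjoin_toSubfield] at hz
  refine exists_mul_eq_of_mem_closure f (fun x hx => ?_) hz
  rcases hx with ⟨c, rfl⟩ | hx
  · exact hK c
  · exact h x hx

end FLTAgent.FFBasic
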