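import Fermat.Agent.FFBasic.Discrete
import Fermat.Prelude.Def_AlgebraicCurve_IsCurveOver
import Mathlib.Algebra.Polynomial.Basis

/-!
# Degree of principal divisors

For a function field `F / K` (any field `K`): residue fields are finite, every function has
finitely many zeros and poles, the degree of the pole divisor of `x` is `[F : K(x)]`, principal
divisors have degree `0`, Riemann-Roch spaces are finite dimensional.
-/

set_option autoImplicit false

noncomputable section

open AlgebraicCurve IntermediateField Polynomial

namespace FLTAgent.FFBasic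

variable {K F : Type*} [Field K] [Field F] [Algebra K F]

theorem adjoin_simple_inv (x : F) : K⟮x⁻¹⟯ = K⟮x⟯ := by
  apply le_antisymm <;> rw [adjoin_simple_le_iff]
  · exact inv_mem (mem_adjoin_simple_self K x)
  · simpa using inv_mem (mem_adjoin_simple_self K x⁻¹)

theorem transcendental_inv {x : F} (hx : Transcendental K x) : Transcendental K x⁻¹ :=
  fun h => hx (inv_inv x ▸ h.inv)

theorem linearIndependent_pow_of_transcendental {x : F} (hx : Transcendental K x) :
    LinearIndependent K fun j : ℕ => x ^ j := by
  have h := (Polynomial.basisMonomials K).linearIndependent.map' (aeval x).toLinearMap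
    (LinearMap.ker_eq_bot.mpr (transcendental_iff_injective.mp hx))
  simpa [Function.comp_def] using h

section Bound

variable [IsFunctionField K F]

/-- The basic inequality: residue families at zeros of `x`, weighted by the orders, have size at
most `[F : K(x)]`. -/
theorem sum_ord_mul_card_le {x : F} (hx : Transcendental K x) (S : Finset (Place K F))
    (hS : ∀ w : S, 0 < w.1.ord x) (J : S → Type*) [∀ w, Fintype (J w)]
    (b : (w : S) → J w → w.1.ResidueField) (hb : ∀ w, LinearIndependent K (b w)) :
    ∑ w : S, (w.1.ord x).toNat * Fintype.card (J w) ≤ Module.finrank K⟮x⟯ F := by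
  classical
  have := IsFunctionField.finiteDimensional_adjoin hx
  have hx0 : x ≠ 0 := fun h => hx (h ▸ isAlgebraic_zero)
  choose t ht0 ht using fun w : S => exists_ord_eq w.1 1
  choose s hs hsb using fun (w : S) (j : J w) => res_surjective w.1 (b w j)
  set e : S → ℕ := fun w => (w.1.ord x).toNat with he
  obtain ⟨z, hz⟩ := exists_isAdapted e t s
  have hxmem : ∀ w : S, x ∈ w.1.toValuationSubring := fun w => mem_of_ord_nonneg _ (hS w).le
  have haeval : ∀ (w : S) (p : K[X]), aeval x p ∈ w.1.toValuationSubring := fun w p =>
    aeval_mem w.1.algebraMap_mem' (hxmem w) p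
  have hxI : ∀ (w : S) (p : K[X]), x * aeval x p ∈ filt w.1 (e w : ℤ) := fun w p => by
    simpa using mul_mem_filt (mem_filt_of_le (show (e w : ℤ) ≤ w.1.ord x by
      have := hS w; simp [he]; omega)) (mem_filt_zero.mpr (haeval w p))
  have hres : ∀ (w : S) (c : J w → K[X]), ∑ j, aeval x (c j) * s w j ∈ filt w.1 1 →
      ∀ j, c j ∈ Ideal.span {(X : K[X])} := by
    intro w c hc j
    rw [Ideal.mem_span_singleton, Polynomial.X_dvd_iff]
    have h1 : ∑ j, (c j).coeff 0 • s w j ∈ filt w.1 1 := by
      have h2 : ∑ j, x * aeval x (c j).divX * s w j ∈ filt w.1 1 :=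
        sum_mem fun j _ => by
          have := mul_mem_filt (hxI w (c j).divX) (mem_filt_zero.mpr (hs w j))
          exact filt_antitone _ (by have := hS w; simp [he]; omega) this
      convert sub_mem hc h2 using 1
      rw [← Finset.sum_sub_distrib]
      exact Finset.sum_congr rfl fun j _ => by
        rw [Algebra.smul_def, aeval_sub_coeff_zero x (c j)]; ring
    have hmem : ∀ j, (c j).coeff 0 • s w j ∈ w.1.toValuationSubring := fun j => by
      rw [Algebra.smul_def]
      exact mul_mem (w.1.algebraMap_mem' _) (hs w j)
    rw [← res_eq_zero_iff _ (sum_mem fun j _ => hmem j), res_sum _ _ _ fun j _ => hmem j] at h1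
    simp only [res_smul _ _ (hs w _), hsb] at h1
    exact Fintype.linearIndependent_iff.mp (hb w) _ h1 j
  have hcoeff : ∀ c : AdaptedIdx e J → K[X],
      (∀ w : S, ∑ l, aeval x (c l) * z l ∈ filt w.1 (e w : ℤ)) →
        ∀ l, c l ∈ Ideal.span {(X : K[X])} := by
    intro c hc
    refine hz.coeff_mem (R := K[X]) ((aeval x : K[X] →ₐ[K] F) : K[X] →+* F)
      (Ideal.span {(X : K[X])}) ht0 ht hs (fun w r => ?_) ?_ (fun w d hd => ?_) c (fun w => ?_)
    · exact haeval w r
    rotate_left
    · exact hres w d hd
    · exact hc w
    intro w r hr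
    obtain ⟨q, rfl⟩ := Ideal.mem_span_singleton.mp hr
    simpa using hxI w q
  have hli : LinearIndependent K⟮x⟯ z := by
    refine linearIndependent_adjoin_of_aeval z fun c hrel l => ?_
    have hdiv : ∀ n : ℕ, ∀ l, X ^ n ∣ c l := by
      intro n
      induction n with
      | zero => simp
      | succ n ih =>
        choose q hq using ih
        have h0 : ∑ l, aeval x (q l) * z l = 0 := by
          have : x ^ n * ∑ l, aeval x (q l) * z l = 0 := by
            rw [← hrel, Finset.mul_sum]
            exact Finset.sum_congr rfl fun l _ => by rw [hq l, map_mul, map_pow, aeval_X, mul_assoc]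
          exact (mul_eq_zero.mp this).resolve_left (pow_ne_zero _ hx0)
        intro l
        rw [hq l, pow_succ]
        exact mul_dvd_mul_left _ (Ideal.mem_span_singleton.mp
          (hcoeff q (fun w => h0 ▸ zero_mem _) l))
    by_contra hne
    have hc0 : c l ≠ 0 := fun h => hne (by rw [h, map_zero])
    obtain ⟨n, hn⟩ := FiniteMultiplicity.of_not_isUnit (Polynomial.not_isUnit_X (R := K)) hc0
    exact hn (hdiv (n + 1) l)
  have hcard := hli.fintype_card_le_finrank
  simpa [AdaptedIdx, he] using hcard

theorem rank_residueField_le {x : F} (v : Place K F) (hv : 0 < v.ord x) :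
    Module.rank K v.ResidueField ≤ Module.finrank K⟮x⟯ F := by
  classical
  refine rank_le fun s hs => ?_
  have h := sum_ord_mul_card_le (transcendental_of_ord_ne_zero v hv.ne') {v}
    (fun w => by obtain ⟨w, hw⟩ := w; rw [Finset.mem_singleton] at hw; subst hw; exact hv)
    (fun _ => ↥s) (fun w => by
      obtain ⟨w, hw⟩ := w; rw [Finset.mem_singleton] at hw; subst hw; exact fun i => i.1)
    (fun w => by
      obtain ⟨w, hw⟩ := w; rw [Finset.mem_singleton] at hw; subst hw; exact hs)
  simp only [Fintype.card_coe, Finset.sum_coe_sort {v} (fun w => (w.ord x).toNat * s.card),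
    Finset.sum_singleton] at h
  refine le_trans ?_ h
  exact Nat.le_mul_of_pos_left _ (by omega)

/-- Residue fields of places of a function field are finite over the constants. -/
instance place_finite_residueField (v : Place K F) : Module.Finite K v.ResidueField := by
  obtain ⟨f, -, hv⟩ := exists_ord_pos v
  exact Module.rank_lt_aleph0_iff.mp
    ((rank_residueField_le v hv).trans_lt Cardinal.natCast_lt_aleph0)

theorem place_deg_pos (v : Place K F) : 0 < v.deg :=
  Module.finrank_pos (R := K) (M := v.ResidueField)

/-- Over an algebraically closed field every place has degree one. -/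
theorem place_deg_eq_one [IsAlgClosed K] (v : Place K F) : v.deg = 1 :=
  v.deg_eq_one_of_isAlgClosed_of_finite

/-- `Σ ord_w(x) · deg w ≤ [F : K(x)]` over zeros of `x`. -/
theorem sum_ord_mul_deg_le {x : F} (hx : Transcendental K x) (S : Finset (Place K F))
    (hS : ∀ w ∈ S, 0 < w.ord x) :
    ∑ w ∈ S, (w.ord x).toNat * w.deg ≤ Module.finrank K⟮x⟯ F := by
  classical
  have h := sum_ord_mul_card_le hx S (fun w => hS w w.2) (fun w => Fin w.1.deg)
    (fun w => Module.finBasis K w.1.ResidueField)
    (fun w => (Module.finBasis K w.1.ResidueField).linearIndependent)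
  simp only [Fintype.card_fin] at h
  rwa [Finset.sum_coe_sort S (fun w => (w.ord x).toNat * w.deg)] at h

/-- A function has finitely many zeros. -/
theorem finite_setOf_ord_pos (x : F) : {v : Place K F | 0 < v.ord x}.Finite := by
  by_cases hx : IsAlgebraic K x
  · simp [ord_eq_zero_of_isAlgebraic _ hx]
  by_contra hinf
  obtain ⟨S, hS, hcard⟩ :=
    Set.Infinite.exists_subset_card_eq hinf (Module.finrank K⟮x⟯ F + 1)
  have hpos : ∀ w ∈ S, 0 < w.ord x := fun w hw => hS hw
  have h := sum_ord_mul_deg_le hx S hpos
  have h1 : S.card ≤ ∑ w ∈ S, (w.ord x).toNat * w.deg := by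
    rw [Finset.card_eq_sum_ones]
    refine Finset.sum_le_sum fun w hw => ?_
    exact Nat.mul_pos (by have := hpos w hw; omega) (place_deg_pos w)
  omega

/-- A function has finitely many zeros and poles. -/
theorem finite_setOf_ord_ne_zero (x : F) : {v : Place K F | v.ord x ≠ 0}.Finite := by
  refine ((finite_setOf_ord_pos x).union (finite_setOf_ord_pos x⁻¹)).subset fun v hv => ?_
  rcases lt_or_gt_of_ne (show v.ord x ≠ 0 from hv) with h | h
  · exact Or.inr (show 0 < v.ord x⁻¹ by rw [v.ord_inv]; omega)
  · exact Or.inl h

/-- The divisor of a function (`0` for the zero function). -/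
def divFun (x : F) : Divisor K F :=
  Finsupp.ofSupportFinite (fun v => v.ord x) (finite_setOf_ord_ne_zero x)

/-- The divisor of a function at a place is its order. -/
@[simp]
theorem divFun_apply (x : F) (v : Place K F) : divFun x v = v.ord x := rfl

theorem divFun_inv (x : F) : divFun (K := K) x⁻¹ = -divFun x := by
  ext v
  simp [Place.ord_inv]

theorem divFun_mul {x y : F} (hx : x ≠ 0) (hy : y ≠ 0) :
    divFun (K := K) (x * y) = divFun x + divFun y := by
  ext v
  simp [Place.ord_mul _ hx hy]

end Bound

/-- Positive part of a divisor. -/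
def divPos (D : Divisor K F) : Divisor K F := D.mapRange (fun n => max n 0) (max_self 0)

@[simp]
theorem divPos_apply (D : Divisor K F) (v : Place K F) : divPos D v = max (D v) 0 := rfl

theorem le_divPos (D : Divisor K F) : D ≤ divPos D := fun v => by simp

theorem divPos_nonneg (D : Divisor K F) : 0 ≤ divPos D := fun v => by simp

theorem divPos_sub_divPos_neg (D : Divisor K F) : divPos D - divPos (-D) = D := by
  ext v
  simp

theorem mem_riemannRochSpace_filt {D : Divisor K F} {f : F} :
    f ∈ riemannRochSpace D ↔ ∀ v : Place K F, f ∈ filt v (-D v) := by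
  rw [mem_riemannRochSpace_iff]
  exact forall_congr' fun v => mem_filt.symm

section RiemannRochSpaces

variable [IsFunctionField K F]

theorem finrank_riemannRochSpace_add_single (D : Divisor K F) (v : Place K F)
    [FiniteDimensional K (riemannRochSpace D)] :
    FiniteDimensional K (riemannRochSpace (D + Finsupp.single v 1)) ∧
      Module.finrank K (riemannRochSpace (D + Finsupp.single v 1)) ≤
        Module.finrank K (riemannRochSpace D) + v.deg := by
  classical
  set D' := D + Finsupp.single v 1 with hD'
  obtain ⟨t, ht0, ht⟩ := exists_ord_eq v (D v + 1)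
  have hDv : D' v = D v + 1 := by simp [hD']
  have hmem : ∀ f ∈ riemannRochSpace D', f * t ∈ v.toValuationSubring := by
    intro f hf
    have h := mem_riemannRochSpace_filt.mp hf v
    rw [hDv] at h
    have h2 := mul_mem_filt h (mem_filt_of_le (v := v) (f := t) ht.ge)
    exact mem_filt_zero.mp (by simpa using h2)
  let φ : riemannRochSpace D' →ₗ[K] v.ResidueField :=
    { toFun := fun f => res v ((f : F) * t)
      map_add' := fun f g => by
        rw [Submodule.coe_add, add_mul, res_add v (hmem f f.2) (hmem g g.2)]
      map_smul' := fun c f => by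
        rw [Submodule.coe_smul, smul_mul_assoc, res_smul v c (hmem f f.2)]
        rfl }
  let ι : LinearMap.ker φ →ₗ[K] riemannRochSpace D :=
    { toFun := fun f => ⟨((f : riemannRochSpace D') : F), by
        refine mem_riemannRochSpace_filt.mpr fun w => ?_
        have hw := mem_riemannRochSpace_filt.mp f.1.2 w
        rcases eq_or_ne w v with rfl | hne
        · rcases eq_or_ne ((f : riemannRochSpace D') : F) 0 with h0 | h0
          · rw [h0]; exact zero_mem _
          have h1 := (res_eq_zero_iff w (hmem _ f.1.2)).mp (LinearMap.mem_ker.mp f.2)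
          rw [mem_filt_iff_of_ne (mul_ne_zero h0 ht0), w.ord_mul h0 ht0, ht] at h1
          exact mem_filt_of_le (by omega)
        · simpa [hD', Finsupp.single_eq_of_ne hne] using hw⟩
      map_add' := fun _ _ => rfl
      map_smul' := fun _ _ => rfl }
  have hι : Function.Injective ι := fun f g h =>
    Subtype.ext (Subtype.ext (congrArg (fun z : riemannRochSpace D => (z : F)) h))
  have : FiniteDimensional K (LinearMap.ker φ) := FiniteDimensional.of_injective ι hι
  have hfin : FiniteDimensional K (riemannRochSpace D') :=
    Module.rank_lt_aleph0_iff.mp (by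
      rw [← φ.rank_range_add_rank_ker]
      exact Cardinal.add_lt_aleph0 (Module.rank_lt_aleph0 K _) (Module.rank_lt_aleph0 K _))
  refine ⟨hfin, ?_⟩
  rw [← φ.finrank_range_add_finrank_ker, add_comm]
  exact add_le_add (LinearMap.finrank_le_finrank_of_injective hι) (Submodule.finrank_le _)

/-- `ℓ(D') ≤ ℓ(D) + deg (D' - D)` for `D ≤ D'`. -/
theorem finrank_riemannRochSpace_le {D D' : Divisor K F} (h : D ≤ D')
    [FiniteDimensional K (riemannRochSpace D)] :
    FiniteDimensional K (riemannRochSpace D') ∧
      (Module.finrank K (riemannRochSpace D') : ℤ) ≤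
        Module.finrank K (riemannRochSpace D) + Divisor.degree (D' - D) := by
  suffices H : ∀ (n : ℕ) (D D' : Divisor K F), D ≤ D' →
      (∑ v ∈ (D' - D).support, ((D' - D) v).toNat) = n →
      FiniteDimensional K (riemannRochSpace D) →
        FiniteDimensional K (riemannRochSpace D') ∧
          (Module.finrank K (riemannRochSpace D') : ℤ) ≤
            Module.finrank K (riemannRochSpace D) + Divisor.degree (D' - D) from
    H _ D D' h rfl inferInstance
  classical
  intro n
  induction n using Nat.strong_induction_on with
  | _ n ih =>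
    intro D D' h hn hfin
    by_cases hzero : D' - D = 0
    · rw [sub_eq_zero] at hzero
      subst hzero
      exact ⟨hfin, by simp⟩
    obtain ⟨v, hv⟩ := Finsupp.support_nonempty_iff.mpr hzero
    have hv1 : 1 ≤ (D' - D) v := by
      have := h v
      rw [Finsupp.mem_support_iff, Finsupp.sub_apply] at hv
      rw [Finsupp.sub_apply]
      omega
    set D₁ := D' - Finsupp.single v 1 with hD₁
    have hle : D ≤ D₁ := fun w => by
      have := h w
      rw [Finsupp.sub_apply] at hv1
      rcases eq_or_ne w v with rfl | hne
      · simp [hD₁]; omega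
      · simpa [hD₁, Finsupp.single_eq_of_ne hne] using this
    have hlt : ∑ w ∈ (D₁ - D).support, ((D₁ - D) w).toNat < n := by
      rw [← hn]
      have hsub : (D₁ - D).support ⊆ (D' - D).support := fun w hw => by
        rcases eq_or_ne w v with rfl | hne
        · exact hv
        · simpa [hD₁, Finsupp.single_eq_of_ne hne] using hw
      rw [Finset.sum_subset hsub fun w _ hw => by
        rw [Finsupp.notMem_support_iff.mp hw]; rfl]
      refine Finset.sum_lt_sum (fun w _ => ?_) ⟨v, hv, ?_⟩
      · rcases eq_or_ne w v with rfl | hne
        · simp [hD₁]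
        · simp [hD₁, Finsupp.single_eq_of_ne hne]
      · simp [hD₁] at hv1 ⊢; omega
    obtain ⟨hf1, hle1⟩ := ih _ hlt D D₁ hle rfl hfin
    obtain ⟨hf2, hle2⟩ := finrank_riemannRochSpace_add_single D₁ v
    have hD' : D₁ + Finsupp.single v 1 = D' := sub_add_cancel D' _
    rw [hD'] at hf2 hle2
    refine ⟨hf2, ?_⟩
    rw [show D' - D = (D₁ - D) + Finsupp.single v 1 by rw [← hD']; abel, map_add,
      Divisor.degree_single, one_mul]
    omega

/-- A function field has a place. -/
theorem nonempty_place : Nonempty (Place K F) := by
  obtain ⟨x, hx, -⟩ := IsFunctionField.exists_transcendental (K := K) (F := F)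
  obtain ⟨v, -⟩ := exists_place_ord_pos hx
  exact ⟨v⟩

theorem mem_riemannRochSpace_zero {f : F} :
    f ∈ riemannRochSpace (0 : Divisor K F) ↔ IsAlgebraic K f := by
  rw [mem_riemannRochSpace_iff]
  refine ⟨fun h => ?_, fun h v => Or.inr (by simp [ord_eq_zero_of_isAlgebraic v h])⟩
  by_contra hc
  obtain ⟨v, hv⟩ := exists_place_ord_neg (K := K) (y := f) hc
  rcases h v with rfl | h'
  · exact hc isAlgebraic_zero
  · simp at h'
    omega

theorem riemannRochSpace_zero_eq_bot_of_isAlgClosed [IsAlgClosed K] :
    riemannRochSpace (0 : Divisor K F) = Submodule.span K {(1 : F)} := by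
  ext f
  rw [mem_riemannRochSpace_zero, Submodule.mem_span_singleton]
  constructor
  · intro h
    obtain ⟨c, hc⟩ := (IsAlgClosed.algebraMap_bijective_of_isIntegral
      (k := K) (K := integralClosure K F)).2 ⟨f, h.isIntegral⟩
    refine ⟨c, ?_⟩
    rw [Algebra.smul_def, mul_one]
    exact congrArg Subtype.val hc
  · rintro ⟨c, rfl⟩
    rw [Algebra.smul_def, mul_one]
    exact isAlgebraic_algebraMap c

instance finiteDimensional_riemannRochSpace_zero :
    FiniteDimensional K (riemannRochSpace (0 : Divisor K F)) := by
  obtain ⟨v⟩ := nonempty_place (K := K) (F := F)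
  have hmem : ∀ f ∈ riemannRochSpace (0 : Divisor K F), f ∈ v.toValuationSubring := fun f hf =>
    mem_filt_zero.mp (by simpa using mem_riemannRochSpace_filt.mp hf v)
  let φ : riemannRochSpace (0 : Divisor K F) →ₗ[K] v.ResidueField :=
    { toFun := fun f => res v (f : F)
      map_add' := fun f g => res_add v (hmem f f.2) (hmem g g.2)
      map_smul' := fun c f => res_smul v c (hmem f f.2) }
  refine FiniteDimensional.of_injective φ ((injective_iff_map_eq_zero φ).mpr fun f hf => ?_)
  have h1 := (res_eq_zero_iff v (hmem f f.2)).mp hf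
  by_contra hne
  have hne' : (f : F) ≠ 0 := fun h => hne (Subtype.ext h)
  have := le_ord_of_mem_filt h1 hne'
  rw [ord_eq_zero_of_isAlgebraic v (mem_riemannRochSpace_zero.mp f.2)] at this
  omega

/-- Riemann–Roch spaces are finite dimensional. -/
instance finiteDimensional_riemannRochSpace (D : Divisor K F) :
    FiniteDimensional K (riemannRochSpace D) :=
  haveI := (finrank_riemannRochSpace_le (divPos_nonneg D)).1
  Submodule.finiteDimensional_of_le (riemannRochSpace_mono (le_divPos D))

end RiemannRochSpaces

section Degree

variable [IsFunctionField K F]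

omit [IsFunctionField K F] in
theorem degree_eq_sum_support (D : Divisor K F) :
    Divisor.degree D = ∑ v ∈ D.support, D v * v.deg := by
  simp [Divisor.degree, Finsupp.sum]

theorem degree_divPos_le_finrank {x : F} (hx : Transcendental K x) :
    Divisor.degree (divPos (divFun (K := K) x)) ≤ Module.finrank K⟮x⟯ F := by
  set P := divPos (divFun (K := K) x) with hP
  have hS : ∀ w ∈ P.support, 0 < w.ord x := fun w hw => by
    simp [hP] at hw
    omega
  have h := sum_ord_mul_deg_le hx P.support hS
  rw [degree_eq_sum_support]
  refine le_trans (le_of_eq ?_) (Int.ofNat_le.mpr h)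
  push_cast
  refine Finset.sum_congr rfl fun w hw => ?_
  simp [hP]

/-- The pole divisor of `x` has degree `[F : K(x)]`. -/
theorem degree_poles {x : F} (hx : Transcendental K x) :
    Divisor.degree (divPos (-divFun (K := K) x)) = Module.finrank K⟮x⟯ F := by
  classical
  have := IsFunctionField.finiteDimensional_adjoin hx
  set B := divPos (-divFun (K := K) x) with hB
  set n := Module.finrank K⟮x⟯ F with hn
  have hle : Divisor.degree B ≤ n := by
    have := degree_divPos_le_finrank (transcendental_inv hx)
    rw [divFun_inv, adjoin_simple_inv] at this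
    exact this
  refine le_antisymm hle ?_
  let u := Module.finBasis K⟮x⟯ F
  set C : Divisor K F := ∑ i, divPos (-divFun (K := K) (u i)) with hC
  have hC0 : 0 ≤ C := Finset.sum_nonneg fun i _ => divPos_nonneg _
  have key : ∀ k : ℕ, ((k : ℤ) + 1) * n ≤
      Module.finrank K (riemannRochSpace (0 : Divisor K F)) + k * Divisor.degree B
        + Divisor.degree C := by
    intro k
    set D := k • B + C with hD
    have hli : LinearIndependent K fun p : Fin (k + 1) × Fin n => x ^ (p.1 : ℕ) * u p.2 := by
      have hp : LinearIndependent K fun j : Fin (k + 1) =>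
          (⟨x ^ (j : ℕ), pow_mem (mem_adjoin_simple_self K x) _⟩ : K⟮x⟯) := by
        apply LinearIndependent.of_comp K⟮x⟯.val.toLinearMap
        exact (linearIndependent_pow_of_transcendental hx).comp _ Fin.val_injective
      simpa [IntermediateField.smul_def] using linearIndependent_smul hp u.linearIndependent
    have hmem : ∀ p : Fin (k + 1) × Fin n, x ^ (p.1 : ℕ) * u p.2 ∈ riemannRochSpace D := by
      intro p
      refine mem_riemannRochSpace_filt.mpr fun v => ?_
      refine mem_filt_of_le ?_
      have hx0 : x ≠ 0 := fun h => hx (h ▸ isAlgebraic_zero)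
      rw [v.ord_mul (pow_ne_zero _ hx0) (u.ne_zero _), ord_pow]
      have h1 : max (-v.ord (u p.2)) 0 ≤ C v := by
        rw [hC, Finset.sum_apply']
        refine le_trans ?_ (Finset.single_le_sum (f := fun i => divPos (-divFun (K := K) (u i)) v)
          (fun i _ => by simp) (Finset.mem_univ p.2))
        simp
      have h2 : -((k : ℤ) * B v) ≤ (p.1 : ℕ) * v.ord x := by
        have hp1 : ((p.1 : ℕ) : ℤ) ≤ k := by exact_mod_cast Nat.le_of_lt_succ p.1.2
        have hBv : B v = max (-v.ord x) 0 := by simp [hB]
        rcases le_total 0 (v.ord x) with h | h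
        · rw [hBv, max_eq_right (by omega), mul_zero, neg_zero]
          exact mul_nonneg (by omega) h
        · rw [hBv, max_eq_left (by omega), mul_neg, neg_neg]
          exact mul_le_mul_of_nonpos_right hp1 h
      simp [hD]
      omega
    have hcard : (k + 1) * n ≤ Module.finrank K (riemannRochSpace D) := by
      have hl : LinearIndependent K fun p => (⟨_, hmem p⟩ : riemannRochSpace D) :=
        LinearIndependent.of_comp (riemannRochSpace D).subtype hli
      simpa using hl.fintype_card_le_finrank
    have hbound := (finrank_riemannRochSpace_le (D := 0) (D' := D)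
      (add_nonneg (nsmul_nonneg (divPos_nonneg _) k) hC0)).2
    rw [sub_zero, hD, map_add, map_nsmul, nsmul_eq_mul] at hbound
    have : (((k + 1) * n : ℕ) : ℤ) ≤ Module.finrank K (riemannRochSpace D) := by
      exact_mod_cast hcard
    push_cast at this
    linarith
  by_contra hlt
  push Not at hlt
  set c : ℤ := Module.finrank K (riemannRochSpace (0 : Divisor K F)) + Divisor.degree C with hc
  have h := key c.toNat
  have hn1 : (1 : ℤ) ≤ n := by
    have : 0 < n := Module.finrank_pos
    omega
  have h3 : (c.toNat : ℤ) * Divisor.degree B ≤ (c.toNat : ℤ) * (n - 1) :=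
    mul_le_mul_of_nonneg_left (by omega) (by omega)
  have : c ≤ c.toNat := Int.self_le_toNat c
  linarith

/-- The zero divisor of `x` has degree `[F : K(x)]`. -/
theorem degree_zeros {x : F} (hx : Transcendental K x) :
    Divisor.degree (divPos (divFun (K := K) x)) = Module.finrank K⟮x⟯ F := by
  have := degree_poles (transcendental_inv hx)
  rwa [divFun_inv, neg_neg, adjoin_simple_inv] at this

/-- Principal divisors have degree `0`. -/
theorem degree_divFun (f : F) : Divisor.degree (divFun (K := K) f) = 0 := by
  by_cases hf : IsAlgebraic K f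
  · have : divFun (K := K) f = 0 := by
      ext v
      simp [ord_eq_zero_of_isAlgebraic v hf]
    rw [this, map_zero]
  · rw [← divPos_sub_divPos_neg (divFun f), map_sub, degree_zeros hf, degree_poles hf, sub_self]

instance hasPrincipalDivisors_of_isFunctionField : HasPrincipalDivisors K F where
  exists_divisor f _ := ⟨divFun f, fun _ => rfl, degree_divFun f⟩

theorem eq_divFun_of_forall {D : Divisor K F} {f : F} (h : ∀ v, D v = v.ord f) :
    D = divFun f :=
  Finsupp.ext fun v => by simp [h v]

/-- The zeros of a nonconstant `x`, as a finset: `Σ ord · deg = [F : K(x)]`. -/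
theorem sum_ord_mul_deg_zeros {x : F} (hx : Transcendental K x) :
    ∑ v ∈ (finite_setOf_ord_pos (K := K) x).toFinset, v.ord x * v.deg
      = Module.finrank K⟮x⟯ F := by
  rw [← degree_zeros hx, degree_eq_sum_support]
  have hsupp : (finite_setOf_ord_pos (K := K) x).toFinset =
      (divPos (divFun (K := K) x)).support := by
    ext v
    simp
  rw [hsupp]
  refine Finset.sum_congr rfl fun v hv => ?_
  simp at hv ⊢
  left
  omega

end Degree

end FLTAgent.FFBasic
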