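import Mathlib.FieldTheory.IntermediateField.Adjoin.Algebra
import Mathlib.FieldTheory.IntermediateField.Adjoin.Basic
import Mathlib.RingTheory.AlgebraicIndependent.TranscendenceBasis
import Mathlib.RingTheory.AlgebraicIndependent.Transcendental
import Mathlib.RingTheory.AlgebraicIndependent.AlgebraicClosure

/-!
# Function fields in one variable

`IsFunctionField K F`: `F` is finite over `K(x)` for a transcendental `x`. Any transcendental
element then serves (`finiteDimensional_adjoin`); finite extensions are function fields and maps
between function fields are finite.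
-/

set_option autoImplicit false

noncomputable section

open IntermediateField

namespace FLTAgent.FFBasic

/-- `F` is a function field in one variable over `K`: finite over `K(x)` for a
transcendental `x`. -/
class IsFunctionField (K F : Type*) [Field K] [Field F] [Algebra K F] : Prop where
  exists_transcendental : ∃ x : F, Transcendental K x ∧ FiniteDimensional K⟮x⟯ F

namespace IsFunctionField

variable (K F : Type*) [Field K] [Field F] [Algebra K F]

theorem essFiniteType [IsFunctionField K F] : Algebra.EssFiniteType K F := by
  obtain ⟨x, _, hfin⟩ := IsFunctionField.exists_transcendental (K := K) (F := F)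
  have : Algebra.EssFiniteType K K⟮x⟯ :=
    IntermediateField.essFiniteType_iff.mpr (fg_adjoin_of_finite (Set.finite_singleton x))
  exact .comp K K⟮x⟯ F

theorem trdeg_le_one [IsFunctionField K F] : Algebra.trdeg K F ≤ 1 := by
  obtain ⟨x, _, hfin⟩ := IsFunctionField.exists_transcendental (K := K) (F := F)
  have halg : Algebra.IsAlgebraic (Algebra.adjoin K ({x} : Set F)) F := by
    rw [← IntermediateField.isAlgebraic_adjoin_iff_top]
    infer_instance
  simpa using Algebra.IsAlgebraic.trdeg_le_cardinalMk K ({x} : Set F)

variable {K F}

theorem isAlgebraic_adjoin [IsFunctionField K F] {y : F} (hy : Transcendental K y) :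
    Algebra.IsAlgebraic K⟮y⟯ F := by
  have hind : AlgebraicIndependent K (fun _ : PUnit.{1} => y) :=
    algebraicIndependent_unique_type_iff.mpr hy
  have hb := hind.isTranscendenceBasis_of_lift_trdeg_le_of_finite (by
    simpa using trdeg_le_one K F)
  have := hb.isAlgebraic_field
  rwa [Set.range_const] at this

/-- `F` is finite over `K(y)` for every transcendental `y`. -/
theorem finiteDimensional_adjoin [IsFunctionField K F] {y : F} (hy : Transcendental K y) :
    FiniteDimensional K⟮y⟯ F := by
  have := essFiniteType K F
  have : Algebra.EssFiniteType K⟮y⟯ F := Algebra.EssFiniteType.of_comp K K⟮y⟯ F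
  have := isAlgebraic_adjoin hy
  exact Algebra.finite_of_essFiniteType_of_isAlgebraic

theorem of_trdeg_eq_one [Algebra.EssFiniteType K F] (h : Algebra.trdeg K F = 1) :
    IsFunctionField K F := by
  obtain ⟨s, hs⟩ := exists_isTranscendenceBasis K F
  have hc := hs.cardinalMk_eq_trdeg
  rw [h, Cardinal.mk_set_eq_one_iff] at hc
  obtain ⟨x, rfl⟩ := hc
  refine ⟨x, ?_, ?_⟩
  · exact hs.1.transcendental ⟨x, rfl⟩
  · have := hs.isAlgebraic_field
    rw [Subtype.range_coe] at this
    have : Algebra.EssFiniteType K⟮x⟯ F := Algebra.EssFiniteType.of_comp K K⟮x⟯ F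
    exact Algebra.finite_of_essFiniteType_of_isAlgebraic

variable {F' : Type*} [Field F'] [Algebra K F'] [Algebra F F'] [IsScalarTower K F F']

/-- A finite extension of a function field is a function field. -/
theorem of_finite_extension [IsFunctionField K F] [Module.Finite F F'] :
    IsFunctionField K F' := by
  obtain ⟨x, hx, hfin⟩ := IsFunctionField.exists_transcendental (K := K) (F := F)
  set ι : F →ₐ[K] F' := IsScalarTower.toAlgHom K F F' with hι
  refine ⟨ι x, fun h => hx ((isAlgebraic_algHom_iff ι ι.injective).mp h), ?_⟩
  have : Module.Finite K⟮x⟯ F' := Module.Finite.trans F F'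
  set e : K⟮x⟯ ≃ₐ[K] K⟮ι x⟯ :=
    (IntermediateField.equivMap K⟮x⟯ ι).trans
      (IntermediateField.equivOfEq (by rw [adjoin_map, Set.image_singleton])) with he
  exact Module.Finite.of_equiv_equiv e.toRingEquiv (RingEquiv.refl F')
    (RingHom.ext fun a => rfl)

/-- An algebra map between function fields is finite. -/
theorem finite_of_isFunctionField [IsFunctionField K F] [IsFunctionField K F'] :
    Module.Finite F F' := by
  obtain ⟨x, hx, hfin⟩ := IsFunctionField.exists_transcendental (K := K) (F := F)
  set ι : F →ₐ[K] F' := IsScalarTower.toAlgHom K F F' with hι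
  have hy : Transcendental K (ι x) := fun h => hx ((isAlgebraic_algHom_iff ι ι.injective).mp h)
  have := finiteDimensional_adjoin hy
  have hle : K⟮ι x⟯ ≤ ι.fieldRange := adjoin_simple_le_iff.mpr ⟨x, rfl⟩
  let : Algebra K⟮ι x⟯ ι.fieldRange := (IntermediateField.inclusion hle).toRingHom.toAlgebra
  have : IsScalarTower K⟮ι x⟯ ι.fieldRange F' := IsScalarTower.of_algebraMap_eq fun _ => rfl
  have : Module.Finite ι.fieldRange F' := Module.Finite.of_restrictScalars_finite K⟮ι x⟯ _ _
  exact Module.Finite.of_equiv_equiv (ι.equivFieldRange).symm.toRingEquiv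
    (RingEquiv.refl F') (RingHom.ext fun a => by
      obtain ⟨b, hb⟩ := ι.equivFieldRange.surjective a
      subst hb
      simp [hι])

end IsFunctionField

end FLTAgent.FFBasic
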