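import Fermat.Agent.FFBasic.Approximation
import Fermat.Agent.FFBasic.FunctionField
import Mathlib.RingTheory.Valuation.LocalSubring
import Mathlib.RingTheory.UniqueFactorizationDomain.Multiplicity

/-!
# Valuation rings of a function field containing the constants are discrete; existence of places

Such rings are principal (`isPrincipalIdealRing_of_const`), hence places
(`placeOfValuationSubring`); a nonconstant element has a zero and a pole, so the algebraic elements
are those of order `0` at every place.
-/

set_option autoImplicit false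

noncomputable section

open AlgebraicCurve IntermediateField Polynomial

namespace FLTAgent.FFBasic

variable {K F : Type*} [Field K] [Field F] [Algebra K F]

/-- A non-unit times an element of the valuation ring is a non-unit. -/
theorem mul_mem_nonunits {A : ValuationSubring F} {a b : F} (ha : a ∈ A.nonunits) (hb : b ∈ A) :
    a * b ∈ A.nonunits := by
  rw [ValuationSubring.mem_nonunits_iff] at ha ⊢
  rw [map_mul]
  exact lt_of_le_of_lt (mul_le_of_le_one_right' ((A.valuation_le_one_iff b).mpr hb)) ha

theorem add_mem_nonunits {A : ValuationSubring F} {a b : F} (ha : a ∈ A.nonunits)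
    (hb : b ∈ A.nonunits) : a + b ∈ A.nonunits := by
  rw [ValuationSubring.mem_nonunits_iff] at ha hb ⊢
  exact lt_of_le_of_lt (Valuation.map_add _ _ _) (max_lt ha hb)

theorem zero_mem_nonunits (A : ValuationSubring F) : (0 : F) ∈ A.nonunits := by
  rw [ValuationSubring.mem_nonunits_iff, map_zero]
  exact zero_lt_one

theorem sum_mem_nonunits {A : ValuationSubring F} {ι : Type*} (s : Finset ι) (f : ι → F)
    (hf : ∀ i ∈ s, f i ∈ A.nonunits) : ∑ i ∈ s, f i ∈ A.nonunits :=
  Finset.sum_induction f (· ∈ A.nonunits) (fun _ _ => add_mem_nonunits) (zero_mem_nonunits A) hf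

/-- Non-units lie in the valuation ring. -/
theorem nonunits_subset {A : ValuationSubring F} {a : F} (ha : a ∈ A.nonunits) : a ∈ A :=
  A.nonunits_subset ha

theorem not_mem_nonunits_one (A : ValuationSubring F) : (1 : F) ∉ A.nonunits := by
  rw [ValuationSubring.mem_nonunits_iff, map_one]
  exact lt_irrefl 1

theorem algebraMap_not_mem_nonunits {A : ValuationSubring F}
    (hK : ∀ a : K, algebraMap K F a ∈ A) {c : K} (hc : c ≠ 0) :
    algebraMap K F c ∉ A.nonunits := by
  intro h
  have h1 := mul_mem_nonunits h (hK c⁻¹)
  rw [← map_mul, mul_inv_cancel₀ hc, map_one] at h1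
  exact not_mem_nonunits_one A h1

/-- A polynomial over the constants maps the valuation ring into itself. -/
theorem aeval_mem {A : ValuationSubring F} (hK : ∀ a : K, algebraMap K F a ∈ A) {x : F}
    (hx : x ∈ A) (p : K[X]) : aeval x p ∈ A := by
  induction p using Polynomial.induction_on with
  | C a => simpa using hK a
  | add p q hp hq => simpa using add_mem hp hq
  | monomial n a _ => simpa using mul_mem (hK a) (pow_mem hx (n + 1))

theorem aeval_sub_coeff_zero (x : F) (p : K[X]) :
    aeval x p = algebraMap K F (p.coeff 0) + x * aeval x p.divX := by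
  conv_lhs => rw [← Polynomial.X_mul_divX_add p]
  rw [map_add, map_mul, aeval_X, aeval_C, add_comm]

/-- Elements of the valuation ring algebraic over the constants are not nonunits. -/
theorem transcendental_of_mem_nonunits {A : ValuationSubring F}
    (hK : ∀ a : K, algebraMap K F a ∈ A) {x : F} (hx : x ∈ A.nonunits) (hx0 : x ≠ 0) :
    Transcendental K x := by
  rintro ⟨p, hp, hpx⟩
  induction hn : p.natDegree using Nat.strong_induction_on generalizing p with
  | _ n ih =>
    by_cases h0 : p.coeff 0 = 0
    · rw [aeval_sub_coeff_zero, h0, map_zero, zero_add, mul_eq_zero, or_iff_right hx0] at hpx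
      have hne : p.divX ≠ 0 := by
        intro hd
        apply hp
        rw [← Polynomial.X_mul_divX_add p, hd, h0]
        simp
      refine ih p.divX.natDegree ?_ p.divX hne hpx rfl
      rw [natDegree_divX_eq_natDegree_tsub_one]
      have : p.natDegree ≠ 0 := by
        intro h
        apply hne
        rw [Polynomial.eq_C_of_natDegree_eq_zero h, divX_C]
      omega
    · apply algebraMap_not_mem_nonunits hK h0
      rw [aeval_sub_coeff_zero, add_eq_zero_iff_eq_neg] at hpx
      rw [hpx, ← mul_neg]
      exact mul_mem_nonunits hx (neg_mem (aeval_mem hK (nonunits_subset hx) _))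

/-- Linear independence over `K⟮x⟯` may be tested with polynomial coefficients. -/
theorem linearIndependent_adjoin_of_aeval {ι : Type*} [Fintype ι] {x : F} (z : ι → F)
    (h : ∀ p : ι → K[X], ∑ i, aeval x (p i) * z i = 0 → ∀ i, aeval x (p i) = 0) :
    LinearIndependent K⟮x⟯ z := by
  classical
  rw [Fintype.linearIndependent_iff]
  intro g hg i
  choose r s hrs using fun j => (mem_adjoin_simple_iff K (g j : F)).mp (g j).2
  have hs : ∀ j, aeval x (s j) = 0 → (g j : F) = 0 := fun j hj => by simp [hrs j, hj]
  set s' : ι → K[X] := fun j => if aeval x (s j) = 0 then 1 else s j with hs'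
  set r' : ι → K[X] := fun j => if aeval x (s j) = 0 then 0 else r j with hr'
  have hs'0 : ∀ j, aeval x (s' j) ≠ 0 := fun j => by
    simp only [hs']
    split <;> simp [*]
  have hg' : ∀ j, (g j : F) = aeval x (r' j) / aeval x (s' j) := fun j => by
    simp only [hs', hr']
    split
    · simpa using hs j ‹_›
    · exact hrs j
  have hrel : ∑ j, aeval x (r' j * ∏ k ∈ Finset.univ.erase j, s' k) * z j = 0 := by
    have : (∏ k, aeval x (s' k)) * ∑ j, (g j : F) * z j = 0 := by
      rw [show ∑ j, (g j : F) * z j = 0 by simpa [IntermediateField.smul_def] using hg, mul_zero]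
    rw [← this, Finset.mul_sum]
    refine Finset.sum_congr rfl fun j _ => ?_
    rw [map_mul, map_prod, hg' j, ← Finset.mul_prod_erase _ _ (Finset.mem_univ j)]
    field_simp [hs'0 j]
  have := h _ hrel i
  rw [map_mul, map_prod, mul_eq_zero, Finset.prod_eq_zero_iff] at this
  refine Subtype.ext ?_
  rcases this with h0 | ⟨k, _, hk⟩
  · rw [hg' i, h0, zero_div]
    rfl
  · exact absurd hk (hs'0 k)

variable [IsFunctionField K F]

/-- Strictly increasing divisibility chains below a nonunit `x` have length at most
`[F : K(x)]`. -/
theorem chain_length_le {A : ValuationSubring F} (hK : ∀ a : K, algebraMap K F a ∈ A)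
    {x : F} (hx : x ∈ A.nonunits) (hx0 : x ≠ 0) {m : ℕ} (c : Fin m → F)
    (hc : ∀ i, c i ≠ 0 ∧ c i ∈ A.nonunits ∧ x / c i ∈ A)
    (hlt : ∀ i j, i < j → c i / c j ∈ A.nonunits) :
    m ≤ Module.finrank K⟮x⟯ F := by
  classical
  have htr := transcendental_of_mem_nonunits hK hx hx0
  have := IsFunctionField.finiteDimensional_adjoin htr
  suffices h : LinearIndependent K⟮x⟯ c by simpa using h.fintype_card_le_finrank
  refine linearIndependent_adjoin_of_aeval c ?_
  -- induction on the total degree of the coefficients
  intro p
  induction hn : ∑ i, (p i).natDegree using Nat.strong_induction_on generalizing p with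
  | _ n ih =>
    intro hrel
    by_cases hall : ∀ i, (p i).coeff 0 = 0
    · have hdiv : ∀ i, aeval x (p i) = x * aeval x (p i).divX := fun i => by
        rw [aeval_sub_coeff_zero, hall i, map_zero, zero_add]
      rcases Nat.eq_zero_or_pos n with rfl | hpos
      · intro i
        have hi : (p i).natDegree = 0 := by
          have := Finset.single_le_sum (f := fun i => (p i).natDegree) (fun _ _ => Nat.zero_le _)
            (Finset.mem_univ i)
          omega
        rw [eq_C_of_natDegree_eq_zero hi, hall i]
        simp
      have hlt' : ∑ i, (p i).divX.natDegree < n := by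
        rw [← hn]
        simp only [natDegree_divX_eq_natDegree_tsub_one]
        obtain ⟨i, hi⟩ : ∃ i, 0 < (p i).natDegree := by
          by_contra hc'
          push Not at hc'
          have : ∑ i, (p i).natDegree = 0 := Finset.sum_eq_zero fun i _ => Nat.le_zero.mp (hc' i)
          omega
        exact Finset.sum_lt_sum (fun j _ => Nat.sub_le _ _) ⟨i, Finset.mem_univ i, by omega⟩
      have h0 : ∑ i, aeval x (p i).divX * c i = 0 := by
        have : x * ∑ i, aeval x (p i).divX * c i = 0 := by
          rw [← hrel, Finset.mul_sum]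
          exact Finset.sum_congr rfl fun i _ => by rw [hdiv i, mul_assoc]
        exact (mul_eq_zero.mp this).resolve_left hx0
      intro i
      rw [hdiv i, ih _ hlt' _ rfl h0 i, mul_zero]
    · exfalso
      push Not at hall
      -- the last index with a nonzero constant coefficient
      set s := Finset.univ.filter fun i => (p i).coeff 0 ≠ 0 with hs
      have hne : s.Nonempty := let ⟨i, hi⟩ := hall; ⟨i, by simp [hs, hi]⟩
      set i := s.max' hne with hi
      have hi0 : (p i).coeff 0 ≠ 0 := by
        have := s.max'_mem hne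
        rw [← hi, hs, Finset.mem_filter] at this
        exact this.2
      apply algebraMap_not_mem_nonunits hK hi0
      have hmem := nonunits_subset hx
      have hci := hc i
      have hterm : ∀ j ∈ Finset.univ.erase i, aeval x (p j) * (c j / c i) ∈ A.nonunits := by
        intro j hj
        rcases lt_or_gt_of_ne (Finset.ne_of_mem_erase hj) with h | h
        · rw [mul_comm]
          exact mul_mem_nonunits (hlt j i h) (aeval_mem hK hmem _)
        · have hj0 : (p j).coeff 0 = 0 := by
            by_contra hne'
            exact absurd (s.le_max' j (by simp [hs, hne'])) (not_le.mpr h)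
          rw [aeval_sub_coeff_zero, hj0, map_zero, zero_add,
            show x * aeval x (p j).divX * (c j / c i) = c j * (x / c i * aeval x (p j).divX) by
              ring]
          exact mul_mem_nonunits (hc j).2.1 (mul_mem hci.2.2 (aeval_mem hK hmem _))
      have hsum : ∑ j, aeval x (p j) * (c j / c i) = 0 := by
        simp_rw [div_eq_mul_inv, ← mul_assoc, ← Finset.sum_mul, hrel, zero_mul]
      rw [← Finset.add_sum_erase _ _ (Finset.mem_univ i), div_self hci.1, mul_one,
        aeval_sub_coeff_zero, add_assoc, add_eq_zero_iff_eq_neg, neg_eq_neg_one_mul,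
          mul_comm] at hsum
      rw [hsum]
      exact mul_mem_nonunits (add_mem_nonunits (mul_mem_nonunits hx (aeval_mem hK hmem _))
        (sum_mem_nonunits _ _ hterm)) (neg_mem (one_mem A))

/-- The lengths of strict divisibility chains below `b`. -/
def chainLengths (A : ValuationSubring F) (b : F) : Set ℕ :=
  {m | ∃ c : Fin m → F, (∀ i, c i ≠ 0 ∧ c i ∈ A.nonunits ∧ b / c i ∈ A) ∧
    ∀ i j, i < j → c i / c j ∈ A.nonunits}

theorem isPrincipalIdealRing_of_const {A : ValuationSubring F}
    (hK : ∀ a : K, algebraMap K F a ∈ A) : IsPrincipalIdealRing A := by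
  refine ((IsBezout.TFAE (R := A)).out 3 1).mp ?_
  have hbdd : ∀ b : A, b ≠ 0 → BddAbove (chainLengths A (b : F)) := by
    intro b hb
    have hb0 : (b : F) ≠ 0 := by simpa using hb
    by_cases hu : (b : F) ∈ A.nonunits
    · exact ⟨Module.finrank K⟮(b : F)⟯ F, fun m ⟨c, hc, hlt⟩ =>
        chain_length_le hK hu hb0 c hc hlt⟩
    · refine ⟨0, fun m ⟨c, hc, _⟩ => ?_⟩
      by_contra hm
      obtain ⟨hc0, hc1, hc2⟩ := hc ⟨0, by omega⟩
      exact hu (by simpa [mul_div_cancel₀ _ hc0] using mul_mem_nonunits hc1 hc2)
  classical
  let f : A → WithTop ℕ := fun b =>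
    if b = 0 then ⊤ else ((sSup (chainLengths A (b : F)) : ℕ) : WithTop ℕ)
  refine ⟨Subrelation.wf ?_ (InvImage.wf f wellFounded_lt)⟩
  rintro a b ⟨ha, u, hu, rfl⟩
  show f a < f (a * u)
  simp only [f, if_neg ha]
  by_cases hu0 : a * u = 0
  · simp [hu0]
  rw [if_neg hu0]
  refine WithTop.coe_lt_coe.mpr ?_
  have ha0 : (a : F) ≠ 0 := by simpa using ha
  have hune : (u : F) ≠ 0 := by
    simpa using (right_ne_zero_of_mul hu0)
  have hun : (u : F) ∈ A.nonunits := by
    rw [← SetLike.mem_coe, ← ValuationSubring.image_maximalIdeal]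
    exact ⟨u, (IsLocalRing.mem_maximalIdeal _).mpr hu, rfl⟩
  have hmem : sSup (chainLengths A (a : F)) ∈ chainLengths A (a : F) :=
    Nat.sSup_mem ⟨0, Fin.elim0, fun i => i.elim0, fun i => i.elim0⟩ (hbdd a ha)
  obtain ⟨c, hc, hlt⟩ := hmem
  refine lt_of_lt_of_le (Nat.lt_succ_self _) (le_csSup (hbdd _ hu0)
    ⟨Fin.cons ((a * u : A) : F) c, ?_, ?_⟩)
  · intro i
    refine Fin.cases ?_ (fun j => ?_) i
    · simp only [Fin.cons_zero]
      refine ⟨by simpa using hu0, ?_, ?_⟩
      · push_cast
        rw [mul_comm]
        exact mul_mem_nonunits hun a.2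
      · rw [div_self (by simpa using hu0)]
        exact one_mem A
    · simp only [Fin.cons_succ]
      refine ⟨(hc j).1, (hc j).2.1, ?_⟩
      push_cast
      rw [mul_comm, mul_div_assoc]
      exact mul_mem u.2 (hc j).2.2
  · intro i j
    refine Fin.cases (fun hj => absurd hj (Fin.not_lt_zero i)) (fun j hij => ?_) j
    refine Fin.cases ?_ (fun i hij => ?_) i hij
    · intro _
      simp only [Fin.cons_succ, Fin.cons_zero]
      push_cast
      rw [mul_comm, mul_div_assoc]
      exact mul_mem_nonunits hun (hc j).2.2
    · simp only [Fin.cons_succ]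
      exact hlt i j (Fin.succ_lt_succ_iff.mp hij)

/-- Every nontrivial valuation ring of a function field containing the constants is a place. -/
def placeOfValuationSubring (A : ValuationSubring F) (hK : ∀ a : K, algebraMap K F a ∈ A)
    (hA : A ≠ ⊤) : Place K F where
  toValuationSubring := A
  algebraMap_mem' := hK
  ne_top' := hA
  isPrincipalIdealRing' := isPrincipalIdealRing_of_const hK

@[simp]
theorem placeOfValuationSubring_toValuationSubring (A : ValuationSubring F)
    (hK : ∀ a : K, algebraMap K F a ∈ A) (hA : A ≠ ⊤) :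
    (placeOfValuationSubring A hK hA).toValuationSubring = A :=
  rfl

/-- An element that is not integral over the constants has a pole. -/
theorem exists_place_ord_neg {y : F} (hy : Transcendental K y) :
    ∃ v : Place K F, v.ord y < 0 := by
  have hni : y ∉ (integralClosure K F).toSubring := fun h =>
    hy (isAlgebraic_iff_isIntegral.mpr h)
  have : IsIntegrallyClosedIn (integralClosure K F).toSubring F :=
    inferInstanceAs (IsIntegrallyClosedIn (integralClosure K F) F)
  obtain ⟨V, hV, hyV⟩ := Subring.exists_le_valuationSubring_of_isIntegrallyClosedIn hni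
  have hK : ∀ a : K, algebraMap K F a ∈ V := fun a => hV ((integralClosure K F).algebraMap_mem a)
  refine ⟨placeOfValuationSubring V hK (fun h => hyV (h ▸ ValuationSubring.mem_top y)), ?_⟩
  by_contra hlt
  push Not at hlt
  exact hyV (mem_of_ord_nonneg (placeOfValuationSubring V hK _) hlt)

theorem exists_place_ord_pos {y : F} (hy : Transcendental K y) :
    ∃ v : Place K F, 0 < v.ord y := by
  obtain ⟨v, hv⟩ := exists_place_ord_neg (y := y⁻¹) fun h => hy (inv_inv y ▸ h.inv)
  exact ⟨v, by rw [v.ord_inv] at hv; omega⟩

omit [IsFunctionField K F] in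
/-- Algebraic elements have order zero. -/
theorem ord_eq_zero_of_isAlgebraic (v : Place K F) {a : F} (ha : IsAlgebraic K a) :
    v.ord a = 0 := by
  rcases eq_or_ne a 0 with rfl | ha0
  · simp
  by_contra hne
  have key : ∀ b : F, b ≠ 0 → IsAlgebraic K b → ¬ 0 < v.ord b := by
    intro b hb halg hpos
    refine transcendental_of_mem_nonunits v.algebraMap_mem' ?_ hb halg
    rw [← SetLike.mem_coe, ← ValuationSubring.image_maximalIdeal]
    refine ⟨⟨b, mem_of_ord_nonneg v hpos.le⟩, ?_, rfl⟩
    rw [SetLike.mem_coe, ← IsLocalRing.residue_eq_zero_iff, residue_eq_zero_iff]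
    exact mem_filt_of_le hpos
  rcases lt_or_gt_of_ne hne with h | h
  · exact key a⁻¹ (inv_ne_zero ha0) ha.inv (by rw [v.ord_inv]; omega)
  · exact key a ha0 ha h

omit [IsFunctionField K F] in
theorem transcendental_of_ord_ne_zero (v : Place K F) {a : F} (h : v.ord a ≠ 0) :
    Transcendental K a :=
  fun ha => h (ord_eq_zero_of_isAlgebraic v ha)

/-- The algebraic elements are those of order `0` at every place. -/
theorem isAlgebraic_iff_forall_ord_eq_zero {a : F} :
    IsAlgebraic K a ↔ ∀ v : Place K F, v.ord a = 0 :=
  ⟨fun h v => ord_eq_zero_of_isAlgebraic v h, fun h => by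
    by_contra hc
    obtain ⟨v, hv⟩ := exists_place_ord_pos (K := K) hc
    exact absurd (h v) hv.ne'⟩

end FLTAgent.FFBasic
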