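import Fermat.Agent.FFBasic.Basic

/-!
# Weak approximation for places and independence of residue families

Finitely many places admit simultaneous approximation (`exists_approx`) with prescribed orders
(`exists_ord_eq_forall`). Adapted families attached to lifts of residues (`IsAdapted`) give the
linear independence behind the fundamental identity.
-/

set_option autoImplicit false

noncomputable section

open AlgebraicCurve WithZero IsLocalRing

namespace FLTAgent.FFBasic

variable {K F : Type*} [Field K] [Field F] [Algebra K F]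

theorem exists_pos_neg {v w : Place K F} (h : v ≠ w) :
    ∃ z : F, z ≠ 0 ∧ 0 < v.ord z ∧ w.ord z < 0 := by
  have hvw : ∃ a : F, 0 ≤ v.ord a ∧ w.ord a < 0 := by
    by_contra hc
    push Not at hc
    exact h (place_ext_ord hc)
  have hwv : ∃ b : F, 0 ≤ w.ord b ∧ v.ord b < 0 := by
    by_contra hc
    push Not at hc
    exact h (place_ext_ord hc).symm
  obtain ⟨a, ha, ha'⟩ := hvw
  obtain ⟨b, hb, hb'⟩ := hwv
  have ha0 : a ≠ 0 := by rintro rfl; simp at ha'
  have hb0 : b ≠ 0 := by rintro rfl; simp at hb'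
  refine ⟨a * b⁻¹, mul_ne_zero ha0 (inv_ne_zero hb0), ?_, ?_⟩ <;>
    rw [Place.ord_mul _ ha0 (inv_ne_zero hb0), Place.ord_inv] <;> omega

/-- An element with a zero at `v` and poles at the other places of `S`. -/
theorem exists_pos_forall_neg (v : Place K F) (S : Finset (Place K F)) (hv : v ∉ S) :
    ∃ z : F, z ≠ 0 ∧ 0 < v.ord z ∧ ∀ w ∈ S, w.ord z < 0 := by
  classical
  induction S using Finset.induction with
  | empty =>
    obtain ⟨z, hz0, hz⟩ := exists_ord_pos v
    exact ⟨z, hz0, hz, by simp⟩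
  | insert w S hw ih =>
    obtain ⟨hvw, hvS⟩ : v ≠ w ∧ v ∉ S := by simpa using hv
    obtain ⟨z, hz0, hzv, hzS⟩ := ih hvS
    obtain ⟨y, hy0, hyv, hyw⟩ := exists_pos_neg hvw
    by_cases hzw : w.ord z < 0
    · exact ⟨z, hz0, hzv, by simpa [hzw] using hzS⟩
    push Not at hzw
    set r : ℕ := (∑ u ∈ S, (u.ord z).natAbs) + 1 with hr
    have hyr : y ^ r ≠ 0 := pow_ne_zero _ hy0
    have hsum : ∀ u ∈ S, (u.ord z).natAbs < r := fun u hu => by
      have := Finset.single_le_sum (f := fun u => (u.ord z).natAbs) (fun _ _ => Nat.zero_le _) hu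
      omega
    have hbound : ∀ u ∈ insert w S, z + y ^ r ≠ 0 ∧ u.ord (z + y ^ r) < 0 := by
      intro u hu
      rcases Finset.mem_insert.mp hu with rfl | hu'
      · have h1 : u.ord (y ^ r) < 0 := by
          rw [ord_pow]
          have : (1 : ℤ) ≤ r := by omega
          nlinarith
        have := ord_add_eq_left u hyr (g := z) (mem_filt_of_le (by omega))
        rw [add_comm z]
        exact ⟨this.1, this.2 ▸ h1⟩
      · have hz' := hzS u hu'
        have hlt := hsum u hu'
        by_cases hy' : u.ord y < 0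
        · have h1 : u.ord (y ^ r) < u.ord z := by
            rw [ord_pow]
            have : (r : ℤ) * u.ord y ≤ (r : ℤ) * (-1) :=
              mul_le_mul_of_nonneg_left (by omega) (by omega)
            omega
          have := ord_add_eq_left u hyr (g := z) (mem_filt_of_le (by omega))
          rw [add_comm z]
          exact ⟨this.1, this.2 ▸ by omega⟩
        · push Not at hy'
          have h1 : u.ord z < u.ord (y ^ r) := by
            rw [ord_pow]
            have : 0 ≤ (r : ℤ) * u.ord y := mul_nonneg (by omega) hy'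
            omega
          have := ord_add_eq_left u hz0 (g := y ^ r) (mem_filt_of_le (by omega))
          exact ⟨this.1, this.2 ▸ hz'⟩
    have hne : z + y ^ r ≠ 0 := (hbound w (Finset.mem_insert_self _ _)).1
    refine ⟨z + y ^ r, hne, ?_, fun u hu => (hbound u hu).2⟩
    have hpos : 0 < v.ord (y ^ r) := by
      rw [ord_pow]
      exact mul_pos (by omega) hyv
    exact lt_of_lt_of_le (lt_min hzv hpos) (le_ord_add v hne)

/-- Approximation of the indicator function of `v`. -/
theorem exists_approx_indicator (v : Place K F) (S : Finset (Place K F)) (hv : v ∉ S) (N : ℕ) :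
    ∃ e : F, e - 1 ∈ filt v (N : ℤ) ∧ ∀ w ∈ S, e ∈ filt w (N : ℤ) := by
  obtain ⟨z, hz0, hzv, hzS⟩ := exists_pos_forall_neg v S hv
  have hzN : z ^ (N + 1) ≠ 0 := pow_ne_zero _ hz0
  have hvN : (N : ℤ) + 1 ≤ v.ord (z ^ (N + 1)) := by
    rw [ord_pow]
    push_cast
    nlinarith
  have hv1 := ord_add_eq_left v (one_ne_zero (α := F)) (g := z ^ (N + 1))
    (mem_filt_of_le (by rw [Place.ord_one]; omega))
  rw [Place.ord_one] at hv1
  refine ⟨(1 + z ^ (N + 1))⁻¹, ?_, fun w hw => ?_⟩
  · have h : (1 + z ^ (N + 1))⁻¹ - 1 = -(z ^ (N + 1) * (1 + z ^ (N + 1))⁻¹) := by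
      have := hv1.1
      field_simp
      ring
    rw [h]
    refine neg_mem (mem_filt_of_le ?_)
    rw [v.ord_mul hzN (inv_ne_zero hv1.1), v.ord_inv, hv1.2]
    omega
  · have hwN : w.ord (z ^ (N + 1)) ≤ -((N : ℤ) + 1) := by
      rw [ord_pow]
      push_cast
      have := hzS w hw
      nlinarith
    have h := ord_add_eq_left w hzN (g := 1)
      (mem_filt_of_le (by rw [Place.ord_one]; omega))
    refine mem_filt_of_le ?_
    rw [add_comm (1 : F), w.ord_inv, h.2]
    omega

/-- Weak approximation. -/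
theorem exists_approx (S : Finset (Place K F)) (a : Place K F → F) (N : Place K F → ℤ) :
    ∃ z : F, ∀ v ∈ S, z - a v ∈ filt v (N v) := by
  classical
  -- a common precision
  set M : ℕ := (∑ v ∈ S, (N v).natAbs) + (∑ w ∈ S, ∑ v ∈ S, (v.ord (a w)).natAbs) with hM
  have hbound : ∀ v ∈ S, ∀ w ∈ S, N v ≤ (M : ℤ) + v.ord (a w) := by
    intro v hv w hw
    have h1 := Finset.single_le_sum (f := fun v => (N v).natAbs) (fun _ _ => Nat.zero_le _) hv
    have h2 := Finset.single_le_sum (f := fun v => (v.ord (a w)).natAbs)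
      (fun _ _ => Nat.zero_le _) hv
    have h3 := Finset.single_le_sum (f := fun w => ∑ v ∈ S, (v.ord (a w)).natAbs)
      (fun _ _ => Nat.zero_le _) hw
    omega
  have hex : ∀ w : Place K F, ∃ e : F, e - 1 ∈ filt w (M : ℤ) ∧
      ∀ u ∈ S.erase w, e ∈ filt u (M : ℤ) := fun w =>
    exists_approx_indicator w (S.erase w) (Finset.notMem_erase w S) M
  choose e he1 he2 using hex
  refine ⟨∑ w ∈ S, e w * a w, fun v hv => ?_⟩
  rw [← Finset.add_sum_erase S _ hv, show e v * a v + ∑ w ∈ S.erase v, e w * a w - a v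
    = (e v - 1) * a v + ∑ w ∈ S.erase v, e w * a w by ring]
  have key : ∀ w ∈ S, ∀ g : F, g ∈ filt v (M : ℤ) → g * a w ∈ filt v (N v) := fun w hw g hg => by
    rcases eq_or_ne (a w) 0 with h | h
    · simp [h]
    · exact filt_antitone v (hbound v hv w hw) (mul_mem_filt hg (mem_filt_of_le le_rfl))
  refine add_mem (key v hv _ (he1 v)) (sum_mem fun w hw => ?_)
  exact key w (Finset.mem_of_mem_erase hw) _
    (he2 w v (Finset.mem_erase.mpr ⟨(Finset.ne_of_mem_erase hw).symm, hv⟩))

/-- Weak approximation with prescribed exact orders. -/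
theorem exists_ord_eq_forall (S : Finset (Place K F)) (n : Place K F → ℤ) :
    ∃ z : F, ∀ v ∈ S, z ≠ 0 ∧ v.ord z = n v := by
  choose a ha0 ha using fun v : Place K F => exists_ord_eq v (n v)
  obtain ⟨z, hz⟩ := exists_approx S a fun v => n v + 1
  refine ⟨z, fun v hv => ?_⟩
  have := ord_add_eq_left v (ha0 v) (g := z - a v) (by rw [ha v]; exact hz v hv)
  rw [add_sub_cancel] at this
  exact ⟨this.1, this.2.trans (ha v)⟩

/-! ### Residue-independent families -/

/-- Index type of a family adapted to places with multiplicities. -/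
abbrev AdaptedIdx {S : Finset (Place K F)} (e : S → ℕ) (J : S → Type*) : Type _ :=
  Σ w : S, Fin (e w) × J w

/-- A family attached to lifts `s` of residues: near `w`, its `(w,i,j)` member is `π_w^i s_{w,j}`,
and it vanishes to order `e u` at the other places `u`. -/
def IsAdapted {S : Finset (Place K F)} (e : S → ℕ) {J : S → Type*} (t : S → F)
    (s : (w : S) → J w → F) (z : AdaptedIdx e J → F) : Prop :=
  ∀ l : AdaptedIdx e J, (z l - t l.1 ^ (l.2.1 : ℕ) * s l.1 l.2.2 ∈ filt l.1.1 (e l.1 : ℤ)) ∧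
    ∀ u : S, u ≠ l.1 → z l ∈ filt u.1 (e u : ℤ)

theorem exists_isAdapted {S : Finset (Place K F)} (e : S → ℕ) {J : S → Type*} (t : S → F)
    (s : (w : S) → J w → F) : ∃ z : AdaptedIdx e J → F, IsAdapted e t s z := by
  classical
  have hex : ∀ l : AdaptedIdx e J, ∃ z : F,
      (z - t l.1 ^ (l.2.1 : ℕ) * s l.1 l.2.2 ∈ filt l.1.1 (e l.1 : ℤ)) ∧
        ∀ u : S, u ≠ l.1 → z ∈ filt u.1 (e u : ℤ) := by
    intro l
    obtain ⟨z, hz⟩ := exists_approx S
      (fun v => if v = l.1.1 then t l.1 ^ (l.2.1 : ℕ) * s l.1 l.2.2 else 0)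
      (fun v => if h : v ∈ S then (e ⟨v, h⟩ : ℤ) else 0)
    refine ⟨z, ?_, fun u hu => ?_⟩
    · have h := hz l.1.1 l.1.2
      rw [if_pos rfl, dif_pos l.1.2] at h
      exact h
    · have hne : ¬u.1 = l.1.1 := fun h => hu (Subtype.ext h)
      simpa [hne] using hz u.1 u.2
  choose z hz using hex
  exact ⟨z, hz⟩

/-- The members of an adapted family are integral at the places of the set. -/
theorem IsAdapted.mem {S : Finset (Place K F)} {e : S → ℕ} {J : S → Type*} {t : S → F}
    {s : (w : S) → J w → F} {z : AdaptedIdx e J → F} (hz : IsAdapted e t s z)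
    (ht : ∀ w : S, w.1.ord (t w) = 1) (hs : ∀ w j, s w j ∈ w.1.toValuationSubring)
    (w : S) (l : AdaptedIdx e J) : z l ∈ w.1.toValuationSubring := by
  rw [← mem_filt_zero]
  by_cases h : w = l.1
  · subst h
    rw [← sub_add_cancel (z l) (t l.1 ^ (l.2.1 : ℕ) * s l.1 l.2.2)]
    refine add_mem (filt_antitone _ (Int.natCast_nonneg _) (hz l).1) ?_
    have h1 := mul_mem_filt (pow_mem_filt (mem_filt_of_le (ht l.1).ge) (l.2.1 : ℕ))
      (mem_filt_zero.mpr (hs l.1 l.2.2))
    exact filt_antitone _ (by omega) h1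
  · exact filt_antitone _ (Int.natCast_nonneg _) ((hz l).2 w h)

/-- If residue families are independent modulo an ideal `I` of a coefficient ring `R` whose
elements vanish to order `e w` at `w`, then a combination of an adapted family lying in
all `filt w (e w)` has coefficients in `I`. -/
theorem IsAdapted.coeff_mem {R : Type*} [CommRing R] (φ : R →+* F) (I : Ideal R)
    {S : Finset (Place K F)} {e : S → ℕ} {J : S → Type*} [∀ w, Fintype (J w)] {t : S → F}
    {s : (w : S) → J w → F} {z : AdaptedIdx e J → F} (hz : IsAdapted e t s z)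
    (ht0 : ∀ w, t w ≠ 0) (ht : ∀ w : S, w.1.ord (t w) = 1)
    (hs : ∀ w j, s w j ∈ w.1.toValuationSubring)
    (hφ : ∀ (w : S) (r : R), φ r ∈ w.1.toValuationSubring)
    (hI : ∀ (w : S), ∀ r ∈ I, φ r ∈ filt w.1 (e w : ℤ))
    (hres : ∀ (w : S) (c : J w → R), ∑ j, φ (c j) * s w j ∈ filt w.1 1 → ∀ j, c j ∈ I)
    (c : AdaptedIdx e J → R)
    (hc : ∀ w : S, ∑ l, φ (c l) * z l ∈ filt w.1 (e w : ℤ)) : ∀ l, c l ∈ I := by
  classical
  suffices h : ∀ (w : S) (i : ℕ), ∀ (hi : i < e w) (j : J w), c ⟨w, ⟨i, hi⟩, j⟩ ∈ I by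
    rintro ⟨w, ⟨i, hi⟩, j⟩
    exact h w i hi j
  intro w i
  induction i using Nat.strong_induction_on with
  | _ i ih =>
    intro hi
    -- at `w` the combination agrees with the sum over the indices over `w`
    set m : Fin (e w) × J w → F := fun p => φ (c ⟨w, p⟩) * (t w ^ (p.1 : ℕ) * s w p.2) with hm
    have key : ∑ p, m p ∈ filt w.1 (e w : ℤ) := by
      have hdiff : ∑ l, φ (c l) * z l - ∑ p, m p ∈ filt w.1 (e w : ℤ) := by
        rw [Fintype.sum_sigma, ← Finset.add_sum_erase _ _ (Finset.mem_univ w), add_sub_right_comm,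
          ← Finset.sum_sub_distrib]
        refine add_mem (sum_mem fun p _ => ?_) (sum_mem fun u hu => sum_mem fun p _ => ?_)
        · rw [hm, ← mul_sub, ← zero_add (e w : ℤ)]
          exact mul_mem_filt (mem_filt_zero.mpr (hφ w _)) (hz ⟨w, p⟩).1
        · rw [← zero_add (e w : ℤ)]
          exact mul_mem_filt (mem_filt_zero.mpr (hφ w _))
            ((hz ⟨u, p⟩).2 w (Finset.ne_of_mem_erase hu).symm)
      simpa using sub_mem (hc w) hdiff
    refine hres w (fun j => c ⟨w, ⟨i, hi⟩, j⟩) ?_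
    -- all other powers of `t w` contribute to order `> i`
    have hterm : ∀ p : Fin (e w) × J w, (p.1 : ℕ) ≠ i → m p ∈ filt w.1 ((i : ℤ) + 1) := by
      intro p hp
      have hts : t w ^ (p.1 : ℕ) * s w p.2 ∈ filt w.1 ((p.1 : ℕ) : ℤ) := by
        have := mul_mem_filt (pow_mem_filt (mem_filt_of_le (ht w).ge) (p.1 : ℕ))
          (mem_filt_zero.mpr (hs w p.2))
        simpa using this
      rcases lt_or_gt_of_ne hp with hlt | hgt
      · exact filt_antitone _ (by omega)
          (mul_mem_filt (hI w _ (ih p.1 hlt p.1.2 p.2)) hts)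
      · exact filt_antitone _ (by omega) (mul_mem_filt (mem_filt_zero.mpr (hφ w _)) hts)
    have hsplit : ∑ p, m p = t w ^ i * ∑ j, φ (c ⟨w, ⟨i, hi⟩, j⟩) * s w j +
        ∑ k ∈ Finset.univ.erase (⟨i, hi⟩ : Fin (e w)), ∑ j, m (k, j) := by
      rw [Fintype.sum_prod_type,
        ← Finset.add_sum_erase _ _ (Finset.mem_univ (⟨i, hi⟩ : Fin (e w))), Finset.mul_sum]
      refine congrArg₂ (· + ·) (Finset.sum_congr rfl fun j _ => ?_) rfl
      simp only [hm]
      ring
    have hrest : ∑ k ∈ Finset.univ.erase (⟨i, hi⟩ : Fin (e w)), ∑ j, m (k, j) ∈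
        filt w.1 ((i : ℤ) + 1) :=
      sum_mem fun k hk => sum_mem fun j _ =>
        hterm (k, j) fun h => Finset.ne_of_mem_erase hk (Fin.ext h)
    have hmain : t w ^ i * ∑ j, φ (c ⟨w, ⟨i, hi⟩, j⟩) * s w j ∈ filt w.1 ((i : ℤ) + 1) := by
      have := filt_antitone w.1 (show (i : ℤ) + 1 ≤ (e w : ℤ) by omega) key
      rw [hsplit] at this
      simpa using sub_mem this hrest
    rcases eq_or_ne (∑ j, φ (c ⟨w, ⟨i, hi⟩, j⟩) * s w j) 0 with h0 | h0
    · rw [h0]
      exact zero_mem _
    rw [mem_filt_iff_of_ne (mul_ne_zero (pow_ne_zero _ (ht0 w)) h0),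
      w.1.ord_mul (pow_ne_zero _ (ht0 w)) h0, ord_pow, ht w] at hmain
    exact mem_filt_of_le (by omega)

end FLTAgent.FFBasic
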