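import Fermat.Prelude.Def_AlgebraicCurve_Repartitions
import Mathlib.FieldTheory.IsAlgClosed.Basic

/-!
# Elementary API for places of a function field

`ord` as a valuation, the filtration `filt v n`, residues.
-/

set_option autoImplicit false

noncomputable section

open AlgebraicCurve WithZero IsLocalRing

namespace FLTAgent.FFBasic

variable {K F : Type*} [Field K] [Field F] [Algebra K F]

theorem mem_iff_adicValuation_le_one (v : Place K F) {f : F} :
    f ∈ v.toValuationSubring ↔ v.adicValuation f ≤ 1 := by
  refine ⟨v.adicValuation_le_one_of_mem, fun h => ?_⟩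
  rcases v.toValuationSubring.mem_or_inv_mem f with hf | hf
  · exact hf
  rcases eq_or_ne f 0 with rfl | hf0
  · exact zero_mem _
  have hinv := v.adicValuation_le_one_of_mem hf
  have h1 : v.adicValuation f * v.adicValuation f⁻¹ = 1 := by
    rw [← map_mul, mul_inv_cancel₀ hf0, map_one]
  have heq : v.adicValuation ((⟨f⁻¹, hf⟩ : v.toValuationSubring) : F) = 1 := by
    refine le_antisymm hinv ?_
    calc (1 : ℤᵐ⁰) = v.adicValuation f * v.adicValuation f⁻¹ := h1.symm
      _ ≤ v.adicValuation f⁻¹ := mul_le_of_le_one_left' h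
  obtain ⟨b, hb⟩ := isUnit_iff_exists_inv.mp ((v.adicValuation_coe_eq_one_iff _).mp heq)
  have hb' : f⁻¹ * (b : F) = 1 := congrArg Subtype.val hb
  have : (b : F) = f := by
    field_simp at hb'
    exact hb'
  exact this ▸ b.2

/-- An element of the valuation ring of a place has order `≥ 0`. -/
theorem ord_nonneg_of_mem (v : Place K F) {f : F} (hf : f ∈ v.toValuationSubring) :
    0 ≤ v.ord f := by
  rcases v.adicValuation_le_one_iff.mp ((mem_iff_adicValuation_le_one v).mp hf) with rfl | h
  · simp
  · exact h

theorem mem_iff_ord_nonneg (v : Place K F) {f : F} (hf : f ≠ 0) :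
    f ∈ v.toValuationSubring ↔ 0 ≤ v.ord f := by
  rw [mem_iff_adicValuation_le_one, v.adicValuation_le_one_iff, or_iff_right hf]

/-- An element of order `≥ 0` lies in the valuation ring of the place. -/
theorem mem_of_ord_nonneg (v : Place K F) {f : F} (h : 0 ≤ v.ord f) :
    f ∈ v.toValuationSubring :=
  (mem_iff_adicValuation_le_one v).mpr (v.adicValuation_le_one_iff.mpr (Or.inr h))

/-- Constants have order `0`. -/
theorem ord_algebraMap (v : Place K F) (a : K) : v.ord (algebraMap K F a) = 0 := by
  rcases eq_or_ne a 0 with rfl | ha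
  · simp
  have h1 := ord_nonneg_of_mem v (v.algebraMap_mem' a)
  have h2 := ord_nonneg_of_mem v (v.algebraMap_mem' a⁻¹)
  rw [map_inv₀, v.ord_inv] at h2
  omega

/-- A nonzero constant factor does not change orders. -/
theorem ord_smul_const (v : Place K F) {c : K} (hc : c ≠ 0) (f : F) :
    v.ord (c • f) = v.ord f := by
  rcases eq_or_ne f 0 with rfl | hf
  · simp
  · rw [Algebra.smul_def, v.ord_mul (by simpa using hc) hf, ord_algebraMap, zero_add]

/-- The order of a power. -/
theorem ord_pow (v : Place K F) (f : F) (n : ℕ) : v.ord (f ^ n) = n * v.ord f := by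
  rw [← zpow_natCast, v.ord_zpow]

/-- The order of a negative. -/
theorem ord_neg (v : Place K F) (f : F) : v.ord (-f) = v.ord f := by
  simp only [Place.ord, Valuation.map_neg]

theorem ord_prod (v : Place K F) {ι : Type*} (s : Finset ι) (f : ι → F)
    (hf : ∀ i ∈ s, f i ≠ 0) : v.ord (∏ i ∈ s, f i) = ∑ i ∈ s, v.ord (f i) := by
  classical
  induction s using Finset.induction with
  | empty => simp
  | insert i s hi ih =>
    rw [Finset.prod_insert hi, Finset.sum_insert hi,
      v.ord_mul (hf i (Finset.mem_insert_self _ _))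
        (Finset.prod_ne_zero_iff.mpr fun j hj => hf j (Finset.mem_insert_of_mem hj)),
      ih fun j hj => hf j (Finset.mem_insert_of_mem hj)]

/-- The fractional ideal of functions vanishing to order at least `n` at `v`. -/
def filt (v : Place K F) (n : ℤ) : Submodule K F where
  carrier := {f | v.adicValuation f ≤ exp (-n)}
  zero_mem' := by simp
  add_mem' := fun {f g} hf hg => by
    show v.adicValuation (f + g) ≤ exp (-n)
    exact (Valuation.map_add _ _ _).trans (max_le hf hg)
  smul_mem' := fun c f hf => by
    show v.adicValuation (c • f) ≤ exp (-n)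
    rw [Algebra.smul_def, map_mul]
    exact (mul_le_of_le_one_left' (v.adicValuation_algebraMap_le_one c)).trans hf

/-- The `n`th step of the filtration consists of `0` and the elements of order `≥ n`. -/
theorem mem_filt {v : Place K F} {n : ℤ} {f : F} :
    f ∈ filt v n ↔ f = 0 ∨ n ≤ v.ord f := by
  change v.adicValuation f ≤ exp (-n) ↔ _
  rw [v.adicValuation_le_exp_iff, neg_neg]

/-- An element of order `≥ n` lies in the `n`th step. -/
theorem mem_filt_of_le {v : Place K F} {n : ℤ} {f : F} (h : n ≤ v.ord f) : f ∈ filt v n :=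
  mem_filt.mpr (Or.inr h)

theorem mem_filt_iff_of_ne {v : Place K F} {n : ℤ} {f : F} (hf : f ≠ 0) :
    f ∈ filt v n ↔ n ≤ v.ord f := by rw [mem_filt, or_iff_right hf]

/-- The zeroth step is the valuation ring. -/
theorem mem_filt_zero {v : Place K F} {f : F} : f ∈ filt v 0 ↔ f ∈ v.toValuationSubring := by
  rw [mem_iff_adicValuation_le_one, v.adicValuation_le_one_iff, mem_filt]

/-- The filtration decreases. -/
theorem filt_antitone (v : Place K F) {m n : ℤ} (h : m ≤ n) : filt v n ≤ filt v m := by
  intro f hf
  rcases mem_filt.mp hf with rfl | hf'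
  · exact zero_mem _
  · exact mem_filt_of_le (h.trans hf')

/-- The filtration is multiplicative. -/
theorem mul_mem_filt {v : Place K F} {m n : ℤ} {f g : F} (hf : f ∈ filt v m)
    (hg : g ∈ filt v n) : f * g ∈ filt v (m + n) := by
  rcases eq_or_ne f 0 with rfl | hf0
  · simp
  rcases eq_or_ne g 0 with rfl | hg0
  · simp
  rw [mem_filt_iff_of_ne hf0] at hf
  rw [mem_filt_iff_of_ne hg0] at hg
  exact mem_filt_of_le (by rw [v.ord_mul hf0 hg0]; omega)

theorem pow_mem_filt {v : Place K F} {m : ℤ} {f : F} (hf : f ∈ filt v m) (k : ℕ) :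
    f ^ k ∈ filt v (k * m) := by
  induction k with
  | zero => simpa using mem_filt_of_le (v := v) (n := 0) (f := (1 : F)) (by simp)
  | succ k ih =>
    rw [pow_succ, show ((k + 1 : ℕ) : ℤ) * m = (k : ℤ) * m + m by push_cast; ring]
    exact mul_mem_filt ih hf

/-- A nonzero element of the `n`th step has order `≥ n`. -/
theorem le_ord_of_mem_filt {v : Place K F} {n : ℤ} {f : F} (hf : f ∈ filt v n) (hf0 : f ≠ 0) :
    n ≤ v.ord f :=
  (mem_filt_iff_of_ne hf0).mp hf

theorem le_ord_add (v : Place K F) {f g : F} (hfg : f + g ≠ 0) :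
    min (v.ord f) (v.ord g) ≤ v.ord (f + g) :=
  le_ord_of_mem_filt (add_mem (mem_filt_of_le (min_le_left _ _))
    (mem_filt_of_le (min_le_right _ _))) hfg

/-- Adding an element of higher order changes neither nonvanishing nor order. -/
theorem ord_add_eq_left (v : Place K F) {f g : F} (hf : f ≠ 0)
    (hg : g ∈ filt v (v.ord f + 1)) : f + g ≠ 0 ∧ v.ord (f + g) = v.ord f := by
  rcases eq_or_ne g 0 with rfl | hg0
  · simp [hf]
  have hlt : v.ord f < v.ord g := by
    have := le_ord_of_mem_filt hg hg0
    omega
  have hne : f + g ≠ 0 := by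
    intro h
    rw [add_eq_zero_iff_eq_neg] at h
    rw [h, ord_neg] at hlt
    omega
  refine ⟨hne, le_antisymm ?_ ?_⟩
  · by_contra hlt'
    have hmem : f + g - g ∈ filt v (v.ord f + 1) :=
      sub_mem (mem_filt_of_le (by omega)) hg
    rw [add_sub_cancel_right] at hmem
    have := le_ord_of_mem_filt hmem hf
    omega
  · have := le_ord_add v hne
    rw [min_eq_left hlt.le] at this
    exact this

/-- Adding zero or an element of higher order changes neither nonvanishing nor order. -/
theorem ord_add_eq_of_lt (v : Place K F) {f g : F} (hf : f ≠ 0)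
    (h : g = 0 ∨ v.ord f < v.ord g) : f + g ≠ 0 ∧ v.ord (f + g) = v.ord f :=
  ord_add_eq_left v hf <| h.elim (fun h => h ▸ zero_mem _) fun h => mem_filt_of_le (by omega)

/-! ### Riemann–Roch spaces -/

/-- Riemann–Roch spaces grow with the divisor. -/
theorem riemannRochSpace_mono {D D' : Divisor K F} (h : D ≤ D') :
    riemannRochSpace D ≤ riemannRochSpace D' := fun _ hf v =>
  (hf v).trans (exp_le_exp.mpr (h v))

/-- The product of sections of two divisors is a section of their sum. -/
theorem mul_mem_riemannRochSpace {D D' : Divisor K F} {f g : F} (hf : f ∈ riemannRochSpace D)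
    (hg : g ∈ riemannRochSpace D') : f * g ∈ riemannRochSpace (D + D') := by
  intro v
  rw [map_mul, Finsupp.add_apply, exp_add]
  exact mul_le_mul' (hf v) (hg v)

/-- The powers of a section of a divisor are sections of its multiples. -/
theorem pow_mem_riemannRochSpace {D : Divisor K F} {f : F} (hf : f ∈ riemannRochSpace D) :
    ∀ n : ℕ, f ^ n ∈ riemannRochSpace (n • D)
  | 0 => fun v => by simp
  | n + 1 => by
    rw [pow_succ, succ_nsmul]
    exact mul_mem_riemannRochSpace (pow_mem_riemannRochSpace hf n) hf

/-- Every integer is an order. -/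
theorem exists_ord_eq (v : Place K F) (n : ℤ) : ∃ f : F, f ≠ 0 ∧ v.ord f = n := by
  obtain ⟨π, hπ⟩ := IsDiscreteValuationRing.exists_irreducible v.toValuationSubring
  have hπ0 : (π : F) ≠ 0 := by simpa [ne_eq, ZeroMemClass.coe_eq_zero] using hπ.ne_zero
  exact ⟨(π : F) ^ n, zpow_ne_zero _ hπ0,
    by rw [v.ord_zpow, v.ord_coe_irreducible hπ, mul_one]⟩

theorem exists_ord_pos (v : Place K F) : ∃ f : F, f ≠ 0 ∧ 0 < v.ord f := by
  obtain ⟨f, hf, h⟩ := exists_ord_eq v 1
  exact ⟨f, hf, by omega⟩

theorem place_eq_of_le {v w : Place K F}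
    (h : ∀ f ∈ v.toValuationSubring, f ∈ w.toValuationSubring) : v = w := by
  obtain ⟨t, ht0, ht⟩ := exists_ord_eq v 1
  have htmem : t ∈ v.toValuationSubring := mem_of_ord_nonneg v (by omega)
  -- all `v`-units are `w`-units
  have hunit : ∀ f : F, f ≠ 0 → v.ord f = 0 → w.ord f = 0 := by
    intro f hf hf0
    have h1 := ord_nonneg_of_mem w (h f (mem_of_ord_nonneg v (by omega)))
    have h2 := ord_nonneg_of_mem w (h f⁻¹ (mem_of_ord_nonneg v (by rw [v.ord_inv]; omega)))
    rw [w.ord_inv] at h2
    omega
  have hlin : ∀ f : F, f ≠ 0 → w.ord f = v.ord f * w.ord t := by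
    intro f hf
    have hu : v.ord (f / t ^ v.ord f) = 0 := by
      rw [div_eq_mul_inv, v.ord_mul hf (inv_ne_zero (zpow_ne_zero _ ht0)), v.ord_inv,
        v.ord_zpow, ht]
      ring
    have hu0 : f / t ^ v.ord f ≠ 0 := div_ne_zero hf (zpow_ne_zero _ ht0)
    have := hunit _ hu0 hu
    rw [div_eq_mul_inv, w.ord_mul hf (inv_ne_zero (zpow_ne_zero _ ht0)), w.ord_inv,
      w.ord_zpow] at this
    omega
  have hwt : 0 < w.ord t := by
    have h0 := ord_nonneg_of_mem w (h t htmem)
    rcases h0.eq_or_lt with h0' | h0'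
    · exfalso
      obtain ⟨g, hg, hwg⟩ := exists_ord_eq w 1
      have := hlin g hg
      rw [← h0', mul_zero] at this
      omega
    · exact h0'
  ext f
  rcases eq_or_ne f 0 with rfl | hf
  · simp
  rw [mem_iff_ord_nonneg v hf, mem_iff_ord_nonneg w hf, hlin f hf]
  exact ⟨fun h0 => mul_nonneg h0 hwt.le, fun h0 => nonneg_of_mul_nonneg_left h0 hwt⟩

/-- Two places with the same nonnegativity locus are equal. -/
theorem place_ext_ord {v w : Place K F} (h : ∀ f : F, 0 ≤ v.ord f → 0 ≤ w.ord f) : v = w :=
  place_eq_of_le fun f hf =>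
    mem_of_ord_nonneg w (h f (ord_nonneg_of_mem v hf))

/-! ### Residues -/

/-- The residue of an element of the valuation ring (junk value `0` outside of it). -/
def res (v : Place K F) (f : F) : v.ResidueField :=
  letI := Classical.propDecidable
  if h : f ∈ v.toValuationSubring then IsLocalRing.residue _ ⟨f, h⟩ else 0

theorem res_coe (v : Place K F) (f : v.toValuationSubring) :
    res v (f : F) = IsLocalRing.residue _ f := by
  rw [res, dif_pos f.2]

theorem res_of_mem (v : Place K F) {f : F} (h : f ∈ v.toValuationSubring) :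
    res v f = IsLocalRing.residue _ ⟨f, h⟩ := by
  rw [res, dif_pos h]

/-- The residue vanishes iff the element has order `≥ 1` or is `0`. -/
theorem residue_eq_zero_iff (v : Place K F) (f : v.toValuationSubring) :
    IsLocalRing.residue _ f = 0 ↔ (f : F) ∈ filt v 1 := by
  rw [IsLocalRing.residue_eq_zero_iff, IsLocalRing.mem_maximalIdeal, mem_nonunits_iff,
    ← v.adicValuation_coe_eq_one_iff, mem_filt]
  rcases eq_or_ne (f : F) 0 with h0 | h0
  · simp [h0]
  · rw [v.adicValuation_eq_exp_neg_ord h0, or_iff_right h0, exp_eq_one, neg_eq_zero]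
    have := ord_nonneg_of_mem v f.2
    omega

theorem res_eq_zero_iff (v : Place K F) {f : F} (h : f ∈ v.toValuationSubring) :
    res v f = 0 ↔ f ∈ filt v 1 := by
  rw [res_of_mem v h, residue_eq_zero_iff]

theorem res_surjective (v : Place K F) (a : v.ResidueField) :
    ∃ f : F, f ∈ v.toValuationSubring ∧ res v f = a := by
  obtain ⟨f, rfl⟩ := IsLocalRing.residue_surjective a
  exact ⟨f, f.2, res_coe v f⟩

theorem res_add (v : Place K F) {f g : F} (hf : f ∈ v.toValuationSubring)
    (hg : g ∈ v.toValuationSubring) : res v (f + g) = res v f + res v g := by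
  rw [res_of_mem v hf, res_of_mem v hg, res_of_mem v (add_mem hf hg), ← map_add]
  rfl

theorem res_mul (v : Place K F) {f g : F} (hf : f ∈ v.toValuationSubring)
    (hg : g ∈ v.toValuationSubring) : res v (f * g) = res v f * res v g := by
  rw [res_of_mem v hf, res_of_mem v hg, res_of_mem v (mul_mem hf hg), ← map_mul]
  rfl

theorem res_algebraMap (v : Place K F) (a : K) :
    res v (algebraMap K F a) = algebraMap K v.ResidueField a := by
  rw [← v.coe_algebraMap, res_coe]
  rfl

theorem res_sum (v : Place K F) {ι : Type*} (s : Finset ι) (f : ι → F)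
    (hf : ∀ i ∈ s, f i ∈ v.toValuationSubring) :
    res v (∑ i ∈ s, f i) = ∑ i ∈ s, res v (f i) := by
  classical
  induction s using Finset.induction with
  | empty => simpa using res_algebraMap v 0
  | insert i s hi ih =>
    rw [Finset.sum_insert hi, Finset.sum_insert hi,
      res_add v (hf i (Finset.mem_insert_self _ _))
        (sum_mem fun j hj => hf j (Finset.mem_insert_of_mem hj)),
      ih fun j hj => hf j (Finset.mem_insert_of_mem hj)]

theorem res_smul (v : Place K F) (a : K) {f : F} (hf : f ∈ v.toValuationSubring) :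
    res v (a • f) = a • res v f := by
  rw [Algebra.smul_def, res_mul v (v.algebraMap_mem' a) hf, res_algebraMap, Algebra.smul_def]

/-- Over an algebraically closed field, every residue of finite degree is a constant. -/
theorem exists_sub_mem_filt_one [IsAlgClosed K] (v : Place K F)
    [Algebra.IsIntegral K v.ResidueField] {f : F} (hf : f ∈ v.toValuationSubring) :
    ∃ c : K, f - algebraMap K F c ∈ filt v 1 := by
  obtain ⟨c, hc⟩ := (IsAlgClosed.algebraMap_bijective_of_isIntegral
    (k := K) (K := v.ResidueField)).2 (res v f)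
  refine ⟨c, (res_eq_zero_iff v (sub_mem hf (v.algebraMap_mem' c))).mp ?_⟩
  rw [sub_eq_add_neg, ← map_neg, res_add v hf (v.algebraMap_mem' _), res_algebraMap, map_neg, hc]
  exact add_neg_cancel _

end FLTAgent.FFBasic
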